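/-
MAZUR project, node [MZ-A], cell [A-UNIF], file `MZ/A/Unif/Surj.lean` (helper7, prefix `mza_us_`),
Mathlib only.

SURJECTIVITY OF THE WEIERSTRASS UNIFORMISATION.

* `mza_us_liouville`  : an entire function periodic with respect to a lattice is constant;
* `mza_us_P_surj`     : `℘[L]` takes every complex value outside the lattice;
* `mza_us_point_surj` : every affine point `(x, y)` of `(2y)² = 4x³ - g₂ x - g₃` is
  `(℘ z, ℘' z / 2)` for some `z ∉ L`.
-/
import Mathlib

set_option autoImplicit false

noncomputable section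

namespace Fermat.Agent.MZ

open Complex Filter Topology

variable (L : PeriodPair)

/-- **Liouville for lattice-periodic entire functions** -/
theorem mza_us_liouville {f : ℂ → ℂ} (hf : Differentiable ℂ f)
    (hper : ∀ z l : ℂ, l ∈ L.lattice → f (z + l) = f z) (x y : ℂ) : f x = f y :=
  hf.apply_eq_apply_of_bounded
    (IsZLattice.isCompact_range_of_periodic L.lattice f hf.continuous hper).isBounded x y

/-- the inverse of `℘ - c`, extended by `0` to the lattice -/
def mza_us_inv (c : ℂ) (z : ℂ) : ℂ :=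
  letI := Classical.propDecidable
  if z ∈ L.lattice then 0 else (L.weierstrassP z - c)⁻¹

theorem mza_us_inv_of_mem {c z : ℂ} (hz : z ∈ L.lattice) : mza_us_inv L c z = 0 := by
  classical
  rw [mza_us_inv, if_pos hz]

theorem mza_us_inv_of_notMem {c z : ℂ} (hz : z ∉ L.lattice) :
    mza_us_inv L c z = (L.weierstrassP z - c)⁻¹ := by
  classical
  rw [mza_us_inv, if_neg hz]

theorem mza_us_inv_add_coe (c z l : ℂ) (hl : l ∈ L.lattice) :
    mza_us_inv L c (z + l) = mza_us_inv L c z := by
  by_cases hz : z ∈ L.lattice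
  · rw [mza_us_inv_of_mem L hz, mza_us_inv_of_mem L (L.lattice.add_mem hz hl)]
  · have hzl : z + l ∉ L.lattice := fun h => hz (by
      have := L.lattice.sub_mem h hl
      rwa [add_sub_cancel_right] at this)
    rw [mza_us_inv_of_notMem L hz, mza_us_inv_of_notMem L hzl]
    have := L.weierstrassP_add_coe z ⟨l, hl⟩
    rw [this]

/-- the order of `℘ - c` at a lattice point is `-2` -/
theorem mza_us_order_sub (c : ℂ) (l₀ : ℂ) (h : l₀ ∈ L.lattice) :
    meromorphicOrderAt (fun z => L.weierstrassP z - c) l₀ = -2 := by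
  classical
  have h1 : meromorphicOrderAt L.weierstrassP l₀ = -2 := L.order_weierstrassP l₀ h
  have h2 : MeromorphicAt (fun _ : ℂ => -c) l₀ := MeromorphicAt.const _ _
  have h3 : meromorphicOrderAt L.weierstrassP l₀ < meromorphicOrderAt (fun _ : ℂ => -c) l₀ := by
    rw [h1, meromorphicOrderAt_const]
    split_ifs
    · exact WithTop.coe_lt_top _
    · show ((-2 : ℤ) : WithTop ℤ) < ((0 : ℤ) : WithTop ℤ)
      exact WithTop.coe_lt_coe.2 (by norm_num)
  have h4 := meromorphicOrderAt_add_eq_left_of_lt (f₁ := L.weierstrassP) h2 h3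
  rw [h1] at h4
  rw [← h4]
  rfl

/-- if `℘` omits the value `c`, then `mza_us_inv L c` is entire -/
theorem mza_us_inv_differentiable (c : ℂ) (hc : ∀ z, z ∉ L.lattice → L.weierstrassP z ≠ c) :
    Differentiable ℂ (mza_us_inv L c) := by
  intro x
  by_cases hx : x ∈ L.lattice
  · -- order `2` at the lattice points
    refine (AnalyticAt.of_meromorphicOrderAt_pos ?_ (mza_us_inv_of_mem L hx)).differentiableAt
    have heq : mza_us_inv L c =ᶠ[𝓝[≠] x] (fun z => L.weierstrassP z - c)⁻¹ := by
      filter_upwards [self_mem_nhdsWithin, mem_nhdsWithin_of_mem_nhds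
        (L.compl_lattice_sdiff_singleton_mem_nhds x)] with w hw hw'
      have hwL : w ∉ L.lattice := fun h => hw' ⟨h, hw⟩
      rw [mza_us_inv_of_notMem L hwL]
      rfl
    rw [meromorphicOrderAt_congr heq, meromorphicOrderAt_inv, mza_us_order_sub L c x hx]
    decide
  · have han : AnalyticAt ℂ (fun z => (L.weierstrassP z - c)⁻¹) x := by
      have h1 := L.analyticOnNhd_weierstrassP x hx
      have h2 : L.weierstrassP x - c ≠ 0 := sub_ne_zero.2 (hc x hx)
      exact (h1.sub analyticAt_const).inv h2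
    refine (han.congr ?_).differentiableAt
    filter_upwards [L.isClosed_lattice.isOpen_compl.mem_nhds hx] with w hw
    rw [mza_us_inv_of_notMem L hw]

/-- **`℘` is surjective** -/
theorem mza_us_P_surj (c : ℂ) : ∃ z, z ∉ L.lattice ∧ L.weierstrassP z = c := by
  by_contra hcon
  push Not at hcon
  have hd := mza_us_inv_differentiable L c hcon
  have hconst := mza_us_liouville L hd (fun z l hl => mza_us_inv_add_coe L c z l hl)
    (L.ω₁ / 2) 0
  rw [mza_us_inv_of_mem L L.lattice.zero_mem,
    mza_us_inv_of_notMem L L.ω₁_div_two_notMem_lattice, inv_eq_zero, sub_eq_zero] at hconst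
  exact hcon _ L.ω₁_div_two_notMem_lattice hconst

/-- **every affine point of the Weierstrass cubic is uniformised** -/
theorem mza_us_point_surj (x y : ℂ) (h : (2 * y) ^ 2 = 4 * x ^ 3 - L.g₂ * x - L.g₃) :
    ∃ z, z ∉ L.lattice ∧ L.weierstrassP z = x ∧ L.derivWeierstrassP z = 2 * y := by
  obtain ⟨z, hz, hPz⟩ := mza_us_P_surj L x
  have hsq := L.derivWeierstrassP_sq z hz
  rw [hPz, ← h] at hsq
  rcases sq_eq_sq_iff_eq_or_eq_neg.1 hsq with h1 | h1
  · exact ⟨z, hz, hPz, h1⟩
  · refine ⟨-z, fun hm => hz (by simpa using L.lattice.neg_mem hm), ?_, ?_⟩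
    · rw [L.weierstrassP_neg, hPz]
    · rw [L.derivWeierstrassP_neg, h1, neg_neg]

end Fermat.Agent.MZ
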