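/-
MAZUR project, node [MZ-A], cell [A-UNIF], file `MZ/A/Unif/PhiHom.lean` (helper7, prefix `mza_uh_`).

THE WEIERSTRASS UNIFORMISATION IS A GROUP HOMOMORPHISM (given the generic addition theorem).

* `mza_uh_curve L`  : the curve `Y² = X³ - (g₂/4) X - g₃/4`;
* `mza_uh_disc_ne_zero L` : `g₂³ - 27 g₃² ≠ 0` (from [A-LAT]);
* `mza_uh_Phi L : ℂ → (mza_uh_curve L).toAffine.Point`, `z ↦ (℘ z, ℘' z / 2)`, `0` on the lattice;
* `mza_uh_AddHyp L` : the generic addition theorem (the hypothesis; helper2's `Unif/Add.lean`);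
* `mza_uh_Phi_add`, `mza_uh_Phi_inj`, `mza_uh_Phi_eq_zero_iff`, `mza_uh_Phi_surjective`, `mza_uh_PhiHom`.
-/
import Mathlib
import Fermat.Agent.MZ.A.Defs
import Fermat.Agent.MZ.A.Lat.Tau
import Fermat.Agent.MZ.A.Lat.Homog
import Fermat.Agent.MZ.A.Unif.Surj

set_option autoImplicit false

noncomputable section

namespace Fermat.Agent.MZ

open Complex Filter Topology UpperHalfPlane
open scoped PeriodPair

variable (L : PeriodPair)

/-! ### every lattice is a scale of some `L_τ`; the discriminant does not vanish -/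

theorem mza_uh_ω₁_ne_zero : L.ω₁ ≠ 0 := by
  intro h
  have := L.indep
  rw [LinearIndependent.pair_iff] at this
  have h2 := this 1 0 (by simp [h])
  exact one_ne_zero h2.1

theorem mza_uh_im_ne_zero : (L.ω₂ / L.ω₁).im ≠ 0 := by
  intro h
  have hω := mza_uh_ω₁_ne_zero L
  have := L.indep
  rw [LinearIndependent.pair_iff] at this
  have hr : ((L.ω₂ / L.ω₁).re : ℂ) = L.ω₂ / L.ω₁ := by
    apply Complex.ext
    · simp
    · simp [h]
  have h2 := this (-(L.ω₂ / L.ω₁).re) 1 (by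
    simp only [Complex.real_smul, Complex.ofReal_neg, Complex.ofReal_one, one_mul]
    rw [hr]
    field_simp
    ring)
  exact one_ne_zero h2.2

/-- every lattice is `ω₁ • (ℤ + ℤ τ)` for some `τ ∈ ℍ` -/
theorem mza_uh_exists_scale : ∃ τ : ℍ, mza_la_IsScale L.ω₁ (mza_Ltau τ) L := by
  have hω := mza_uh_ω₁_ne_zero L
  rcases lt_or_gt_of_ne (mza_uh_im_ne_zero L) with h | h
  · refine ⟨⟨-(L.ω₂ / L.ω₁), by simpa using h⟩, ?_⟩
    intro x
    rw [PeriodPair.mem_lattice]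
    constructor
    · rintro ⟨m, n, rfl⟩
      refine ⟨(m : ℂ) + ((-n : ℤ) : ℂ) * (-(L.ω₂ / L.ω₁)), mza_mem_Ltau.2 ⟨m, -n, rfl⟩, ?_⟩
      push_cast
      field_simp
    · rintro ⟨l, hl, rfl⟩
      obtain ⟨m, n, rfl⟩ := mza_mem_Ltau.1 hl
      refine ⟨m, -n, ?_⟩
      show (m : ℂ) * L.ω₁ + ((-n : ℤ) : ℂ) * L.ω₂ = L.ω₁ * ((m : ℂ) + (n : ℂ) * (-(L.ω₂ / L.ω₁)))
      push_cast
      field_simp
  · refine ⟨⟨L.ω₂ / L.ω₁, h⟩, ?_⟩
    intro x
    rw [PeriodPair.mem_lattice]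
    constructor
    · rintro ⟨m, n, rfl⟩
      refine ⟨(m : ℂ) + (n : ℂ) * (L.ω₂ / L.ω₁), mza_mem_Ltau.2 ⟨m, n, rfl⟩, ?_⟩
      field_simp
    · rintro ⟨l, hl, rfl⟩
      obtain ⟨m, n, rfl⟩ := mza_mem_Ltau.1 hl
      refine ⟨m, n, ?_⟩
      show (m : ℂ) * L.ω₁ + (n : ℂ) * L.ω₂ = L.ω₁ * ((m : ℂ) + (n : ℂ) * (L.ω₂ / L.ω₁))
      field_simp

/-- **the discriminant of a lattice does not vanish** -/
theorem mza_uh_disc_ne_zero : L.g₂ ^ 3 - 27 * L.g₃ ^ 2 ≠ 0 := by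
  obtain ⟨τ, hτ⟩ := mza_uh_exists_scale L
  have hω := mza_uh_ω₁_ne_zero L
  rw [mza_la_disc_scale hω hτ]
  exact mul_ne_zero (inv_ne_zero (pow_ne_zero _ hω)) (mza_la_disc_ne_zero τ)

/-! ### the curve and the uniformisation -/

/-- the Weierstrass curve `Y² = X³ - (g₂/4) X - g₃/4` of a lattice -/
def mza_uh_curve : WeierstrassCurve ℂ := ⟨0, 0, 0, -L.g₂ / 4, -L.g₃ / 4⟩

theorem mza_uh_curve_Δ : (mza_uh_curve L).Δ = L.g₂ ^ 3 - 27 * L.g₃ ^ 2 := by
  simp only [mza_uh_curve, WeierstrassCurve.Δ, WeierstrassCurve.b₂, WeierstrassCurve.b₄,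
    WeierstrassCurve.b₆, WeierstrassCurve.b₈]
  ring

theorem mza_uh_curve_Δ_ne_zero : (mza_uh_curve L).Δ ≠ 0 := by
  rw [mza_uh_curve_Δ]
  exact mza_uh_disc_ne_zero L

theorem mza_uh_equation_iff (x y : ℂ) :
    (mza_uh_curve L).toAffine.Equation x y ↔ (2 * y) ^ 2 = 4 * x ^ 3 - L.g₂ * x - L.g₃ := by
  rw [WeierstrassCurve.Affine.equation_iff]
  simp only [mza_uh_curve]
  constructor
  · intro h
    linear_combination 4 * h
  · intro h
    linear_combination (1 / 4 : ℂ) * h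

theorem mza_uh_nonsingular_iff (x y : ℂ) :
    (mza_uh_curve L).toAffine.Nonsingular x y ↔ (2 * y) ^ 2 = 4 * x ^ 3 - L.g₂ * x - L.g₃ := by
  rw [← WeierstrassCurve.Affine.equation_iff_nonsingular_of_Δ_ne_zero (mza_uh_curve_Δ_ne_zero L),
    mza_uh_equation_iff]

theorem mza_uh_nonsingular {z : ℂ} (hz : z ∉ L.lattice) :
    (mza_uh_curve L).toAffine.Nonsingular (℘[L] z) (℘'[L] z / 2) := by
  rw [mza_uh_nonsingular_iff, mul_div_cancel₀ _ (two_ne_zero' ℂ)]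
  exact L.derivWeierstrassP_sq z hz

open Classical in
/-- **the Weierstrass uniformisation** `z ↦ (℘ z, ℘' z / 2)`, `0` on the lattice -/
def mza_uh_Phi (z : ℂ) : (mza_uh_curve L).toAffine.Point :=
  if h : z ∈ L.lattice then 0 else .some _ _ (mza_uh_nonsingular L h)

theorem mza_uh_Phi_of_mem {z : ℂ} (hz : z ∈ L.lattice) : mza_uh_Phi L z = 0 := by
  rw [mza_uh_Phi, dif_pos hz]

theorem mza_uh_Phi_of_notMem {z : ℂ} (hz : z ∉ L.lattice) :
    mza_uh_Phi L z = .some _ _ (mza_uh_nonsingular L hz) := by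
  rw [mza_uh_Phi, dif_neg hz]

/-- `Φ z = 0 ↔ z ∈ L` -/
theorem mza_uh_Phi_eq_zero_iff (z : ℂ) : mza_uh_Phi L z = 0 ↔ z ∈ L.lattice := by
  constructor
  · intro h
    by_contra hz
    rw [mza_uh_Phi_of_notMem L hz] at h
    exact WeierstrassCurve.Affine.Point.some_ne_zero _ h
  · exact mza_uh_Phi_of_mem L

theorem mza_uh_Phi_some_iff {z x y : ℂ} (hz : z ∉ L.lattice)
    (h : (mza_uh_curve L).toAffine.Nonsingular x y) :
    mza_uh_Phi L z = .some x y h ↔ ℘[L] z = x ∧ ℘'[L] z = 2 * y := by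
  rw [mza_uh_Phi_of_notMem L hz, WeierstrassCurve.Affine.Point.some.injEq]
  constructor
  · rintro ⟨h1, h2⟩
    refine ⟨h1, ?_⟩
    rw [← h2]
    ring
  · rintro ⟨h1, h2⟩
    refine ⟨h1, ?_⟩
    rw [h2]
    ring

theorem mza_uh_add_mem_iff {z l : ℂ} (hl : l ∈ L.lattice) :
    z + l ∈ L.lattice ↔ z ∈ L.lattice := by
  constructor
  · intro h
    have := L.lattice.sub_mem h hl
    rwa [add_sub_cancel_right] at this
  · intro h
    exact L.lattice.add_mem h hl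

theorem mza_uh_neg_mem_iff {z : ℂ} : -z ∈ L.lattice ↔ z ∈ L.lattice := by
  constructor
  · intro h
    simpa using L.lattice.neg_mem h
  · exact L.lattice.neg_mem

/-- `Φ` is `L`-periodic -/
theorem mza_uh_Phi_add_coe (z : ℂ) {l : ℂ} (hl : l ∈ L.lattice) :
    mza_uh_Phi L (z + l) = mza_uh_Phi L z := by
  by_cases hz : z ∈ L.lattice
  · rw [mza_uh_Phi_of_mem L hz, mza_uh_Phi_of_mem L ((mza_uh_add_mem_iff L hl).2 hz)]
  · have hzl : z + l ∉ L.lattice := fun h => hz ((mza_uh_add_mem_iff L hl).1 h)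
    rw [mza_uh_Phi_of_notMem L hzl, mza_uh_Phi_of_notMem L hz,
      WeierstrassCurve.Affine.Point.some.injEq]
    exact ⟨L.weierstrassP_add_coe z ⟨l, hl⟩, by rw [L.derivWeierstrassP_add_coe z ⟨l, hl⟩]⟩

/-- `Φ (-z) = - Φ z` -/
theorem mza_uh_Phi_neg (z : ℂ) : mza_uh_Phi L (-z) = -mza_uh_Phi L z := by
  by_cases hz : z ∈ L.lattice
  · rw [mza_uh_Phi_of_mem L hz, mza_uh_Phi_of_mem L ((mza_uh_neg_mem_iff L).2 hz), neg_zero]
  · have hnz : -z ∉ L.lattice := fun h => hz ((mza_uh_neg_mem_iff L).1 h)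
    rw [mza_uh_Phi_of_notMem L hnz, mza_uh_Phi_of_notMem L hz,
      WeierstrassCurve.Affine.Point.neg_some, WeierstrassCurve.Affine.Point.some.injEq]
    refine ⟨L.weierstrassP_neg z, ?_⟩
    rw [L.derivWeierstrassP_neg]
    simp only [WeierstrassCurve.Affine.negY, mza_uh_curve]
    ring

/-- if `z ≡ w` mod `L` then `Φ z = Φ w` -/
theorem mza_uh_Phi_congr {z w : ℂ} (h : z - w ∈ L.lattice) : mza_uh_Phi L z = mza_uh_Phi L w := by
  have := mza_uh_Phi_add_coe L w h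
  rwa [add_sub_cancel] at this

/-! ### analytic input: `℘` is nowhere locally constant, and tends to `∞` at the lattice -/

theorem mza_uh_countable_lattice : (L.lattice : Set ℂ).Countable := by
  have : Countable L.lattice := Countable.of_equiv _ L.latticeEquivProd.toEquiv.symm
  exact Set.countable_coe_iff.mp this

theorem mza_uh_isPreconnected_compl : IsPreconnected (L.lattice : Set ℂ)ᶜ :=
  ((mza_uh_countable_lattice L).isConnected_compl_of_one_lt_rank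
    (by rw [Complex.rank_real_complex]; norm_num)).isPreconnected

/-- `℘` takes any given value only at isolated points -/
theorem mza_uh_eventually_ne (c : ℂ) {z₀ : ℂ} (hz₀ : z₀ ∉ L.lattice) :
    ∀ᶠ t in 𝓝[≠] z₀, ℘[L] t ≠ c := by
  have han : AnalyticAt ℂ ℘[L] z₀ := L.analyticOnNhd_weierstrassP z₀ hz₀
  rcases han.eventually_eq_or_eventually_ne (analyticAt_const (v := c)) with h | h
  · exfalso
    have hEq : Set.EqOn ℘[L] (fun _ => c) (L.lattice : Set ℂ)ᶜ :=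
      L.analyticOnNhd_weierstrassP.eqOn_of_preconnected_of_eventuallyEq analyticOnNhd_const
        (mza_uh_isPreconnected_compl L) hz₀ h
    obtain ⟨z, hz, hPz⟩ := mza_us_P_surj L (c + 1)
    have := hEq hz
    simp only at this
    rw [hPz] at this
    exact one_ne_zero (by linear_combination this)
  · exact h

/-- `℘ t → ∞` as `t → 0` -/
theorem mza_uh_tendsto_cobounded : Tendsto ℘[L] (𝓝[≠] 0) (Bornology.cobounded ℂ) := by
  apply tendsto_cobounded_of_meromorphicOrderAt_neg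
  rw [L.order_weierstrassP 0 L.lattice.zero_mem]
  decide

theorem mza_uh_eventually_notMem {a : ℂ} (ha : a ∉ L.lattice) : ∀ᶠ t in 𝓝 a, t ∉ L.lattice :=
  L.isClosed_lattice.isOpen_compl.mem_nhds ha

theorem mza_uh_eventually_notMem' (a : ℂ) : ∀ᶠ t in 𝓝[≠] a, t ∉ L.lattice := by
  filter_upwards [self_mem_nhdsWithin, mem_nhdsWithin_of_mem_nhds
    (L.compl_lattice_sdiff_singleton_mem_nhds a)] with w hw hw'
  exact fun h => hw' ⟨h, hw⟩

/-! ### the generic addition theorem as a hypothesis -/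

/-- **the generic addition theorem** (chord formulas) for `℘`, `℘'` -/
def mza_uh_AddHyp : Prop :=
  ∀ z w : ℂ, z ∉ L.lattice → w ∉ L.lattice → z + w ∉ L.lattice → ℘[L] z ≠ ℘[L] w →
    ℘[L] (z + w) = ((℘'[L] z - ℘'[L] w) / (2 * (℘[L] z - ℘[L] w))) ^ 2 - ℘[L] z - ℘[L] w ∧
    ℘'[L] (z + w) / 2 = -(((℘'[L] z - ℘'[L] w) / (2 * (℘[L] z - ℘[L] w))) *
      (℘[L] (z + w) - ℘[L] z) + ℘'[L] z / 2)

variable {L}

/-- generic addition: `Φ (z + w) = Φ z + Φ w` when `℘ z ≠ ℘ w` -/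
theorem mza_uh_Phi_add_generic (hA : mza_uh_AddHyp L) {z w : ℂ} (hz : z ∉ L.lattice)
    (hw : w ∉ L.lattice) (hzw : z + w ∉ L.lattice) (hne : ℘[L] z ≠ ℘[L] w) :
    mza_uh_Phi L (z + w) = mza_uh_Phi L z + mza_uh_Phi L w := by
  classical
  obtain ⟨h1, h2⟩ := hA z w hz hw hzw hne
  rw [mza_uh_Phi_of_notMem L hz, mza_uh_Phi_of_notMem L hw, mza_uh_Phi_of_notMem L hzw,
    WeierstrassCurve.Affine.Point.add_of_X_ne hne, WeierstrassCurve.Affine.Point.some.injEq]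
  have hsl : (mza_uh_curve L).toAffine.slope (℘[L] z) (℘[L] w) (℘'[L] z / 2) (℘'[L] w / 2)
      = (℘'[L] z - ℘'[L] w) / (2 * (℘[L] z - ℘[L] w)) := by
    rw [WeierstrassCurve.Affine.slope_of_X_ne hne]
    have : ℘[L] z - ℘[L] w ≠ 0 := sub_ne_zero.2 hne
    field_simp
  rw [hsl]
  constructor
  · rw [h1]
    simp only [WeierstrassCurve.Affine.addX, mza_uh_curve]
    ring
  · have h2' : ℘'[L] (z + w) / 2 = -(((℘'[L] z - ℘'[L] w) / (2 * (℘[L] z - ℘[L] w))) *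
      (((℘'[L] z - ℘'[L] w) / (2 * (℘[L] z - ℘[L] w))) ^ 2 - ℘[L] z - ℘[L] w - ℘[L] z)
        + ℘'[L] z / 2) := by
      rw [h2, h1]
    rw [h2']
    simp only [WeierstrassCurve.Affine.addY, WeierstrassCurve.Affine.negAddY,
      WeierstrassCurve.Affine.addX, WeierstrassCurve.Affine.negY, mza_uh_curve]
    ring

/-- a generic auxiliary point: near `-z` every degenerate condition fails -/
theorem mza_uh_exists_generic {z w : ℂ} (hz : z ∉ L.lattice) (hzw : z + w ∉ L.lattice) :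
    ∃ t : ℂ, t ∉ L.lattice ∧ z + t ∉ L.lattice ∧ w - t ∉ L.lattice ∧
      ℘[L] (z + t) ≠ ℘[L] (w - t) ∧ ℘[L] z ≠ ℘[L] t ∧ ℘[L] w ≠ ℘[L] t := by
  have hnz : -z ∉ L.lattice := fun h => hz ((mza_uh_neg_mem_iff L).1 h)
  -- (1)
  have e1 : ∀ᶠ t in 𝓝[≠] (-z), t ∉ L.lattice :=
    mem_nhdsWithin_of_mem_nhds (mza_uh_eventually_notMem L hnz)
  -- the translation `t ↦ z + t` maps the punctured neighbourhood of `-z` to that of `0`
  have htr : Tendsto (fun t : ℂ => z + t) (𝓝[≠] (-z)) (𝓝[≠] 0) := by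
    refine tendsto_nhdsWithin_of_tendsto_nhds_of_eventually_within _ ?_ ?_
    · have : Tendsto (fun t : ℂ => z + t) (𝓝 (-z)) (𝓝 (z + -z)) :=
        (continuous_const.add continuous_id).tendsto _
      rw [add_neg_cancel] at this
      exact this.mono_left nhdsWithin_le_nhds
    · filter_upwards [self_mem_nhdsWithin] with t ht
      intro h0
      apply ht
      have : z + t = 0 := h0
      show t = -z
      linear_combination this
  -- (2)
  have e2 : ∀ᶠ t in 𝓝[≠] (-z), z + t ∉ L.lattice := htr.eventually (mza_uh_eventually_notMem' L 0)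
  -- (3)
  have hsub : Tendsto (fun t : ℂ => w - t) (𝓝[≠] (-z)) (𝓝 (z + w)) := by
    have : Tendsto (fun t : ℂ => w - t) (𝓝 (-z)) (𝓝 (w - -z)) :=
      (continuous_const.sub continuous_id).tendsto _
    rw [sub_neg_eq_add, add_comm] at this
    exact this.mono_left nhdsWithin_le_nhds
  have e3 : ∀ᶠ t in 𝓝[≠] (-z), w - t ∉ L.lattice :=
    hsub.eventually (mza_uh_eventually_notMem L hzw)
  -- (4)
  have e4 : ∀ᶠ t in 𝓝[≠] (-z), ℘[L] (z + t) ≠ ℘[L] (w - t) := by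
    have hinf : Tendsto (fun t : ℂ => ‖℘[L] (z + t)‖) (𝓝[≠] (-z)) atTop :=
      tendsto_norm_cobounded_atTop.comp ((mza_uh_tendsto_cobounded L).comp htr)
    have hfin : Tendsto (fun t : ℂ => ‖℘[L] (w - t)‖) (𝓝[≠] (-z)) (𝓝 ‖℘[L] (z + w)‖) :=
      ((L.analyticOnNhd_weierstrassP (z + w) hzw).continuousAt.tendsto.comp hsub).norm
    filter_upwards [hinf.eventually_gt_atTop (‖℘[L] (z + w)‖ + 1),
      hfin.eventually (gt_mem_nhds (lt_add_one _))] with t h1 h2 heq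
    rw [heq] at h1
    exact lt_irrefl _ (h1.trans h2)
  -- (5), (6)
  have e5 : ∀ᶠ t in 𝓝[≠] (-z), ℘[L] t ≠ ℘[L] z := mza_uh_eventually_ne L _ hnz
  have e6 : ∀ᶠ t in 𝓝[≠] (-z), ℘[L] t ≠ ℘[L] w := mza_uh_eventually_ne L _ hnz
  obtain ⟨t, h1, h2, h3, h4, h5, h6⟩ := (e1.and (e2.and (e3.and (e4.and (e5.and e6))))).exists
  exact ⟨t, h1, h2, h3, h4, h5.symm, h6.symm⟩

/-- **the addition theorem for `Φ`** -/
theorem mza_uh_Phi_add (hA : mza_uh_AddHyp L) (z w : ℂ) :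
    mza_uh_Phi L (z + w) = mza_uh_Phi L z + mza_uh_Phi L w := by
  by_cases hz : z ∈ L.lattice
  · rw [mza_uh_Phi_of_mem L hz, zero_add, add_comm, mza_uh_Phi_add_coe L w hz]
  by_cases hw : w ∈ L.lattice
  · rw [mza_uh_Phi_of_mem L hw, add_zero, mza_uh_Phi_add_coe L z hw]
  by_cases hzw : z + w ∈ L.lattice
  · rw [mza_uh_Phi_of_mem L hzw]
    have h1 : mza_uh_Phi L w = mza_uh_Phi L (-z) := by
      apply mza_uh_Phi_congr
      rwa [sub_neg_eq_add, add_comm]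
    rw [h1, mza_uh_Phi_neg, add_neg_cancel]
  obtain ⟨t, h1, h2, h3, h4, h5, h6⟩ := mza_uh_exists_generic hz hzw
  have hnt : -t ∉ L.lattice := fun h => h1 ((mza_uh_neg_mem_iff L).1 h)
  have hs : z + w = (z + t) + (w - t) := by ring
  have hs' : (z + t) + (w - t) ∉ L.lattice := by rwa [← hs]
  have hwt : w + -t ∉ L.lattice := by rwa [← sub_eq_add_neg]
  have a1 := mza_uh_Phi_add_generic hA h2 h3 hs' h4
  have a2 := mza_uh_Phi_add_generic hA hz h1 h2 h5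
  have a3 := mza_uh_Phi_add_generic hA hw hnt hwt (by rwa [L.weierstrassP_neg])
  rw [← sub_eq_add_neg] at a3
  rw [hs, a1, a2, a3, mza_uh_Phi_neg]
  abel

variable (L)

/-- `Φ` as a group homomorphism -/
def mza_uh_PhiHom (hA : mza_uh_AddHyp L) : ℂ →+ (mza_uh_curve L).toAffine.Point where
  toFun := mza_uh_Phi L
  map_zero' := mza_uh_Phi_of_mem L L.lattice.zero_mem
  map_add' := mza_uh_Phi_add hA

@[simp] theorem mza_uh_PhiHom_apply (hA : mza_uh_AddHyp L) (z : ℂ) :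
    mza_uh_PhiHom L hA z = mza_uh_Phi L z := rfl

/-- `Φ z = Φ w ↔ z ≡ w` mod `L` -/
theorem mza_uh_Phi_inj (hA : mza_uh_AddHyp L) (z w : ℂ) :
    mza_uh_Phi L z = mza_uh_Phi L w ↔ z - w ∈ L.lattice := by
  rw [← mza_uh_Phi_eq_zero_iff, sub_eq_add_neg, mza_uh_Phi_add hA, mza_uh_Phi_neg,
    ← sub_eq_add_neg, sub_eq_zero]

/-- `Φ` is surjective -/
theorem mza_uh_Phi_surjective : Function.Surjective (mza_uh_Phi L) := by
  rintro (_ | ⟨x, y, h⟩)
  · exact ⟨0, mza_uh_Phi_of_mem L L.lattice.zero_mem⟩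
  · obtain ⟨z, hz, h1, h2⟩ := mza_us_point_surj L x y ((mza_uh_nonsingular_iff L x y).1 h)
    exact ⟨z, (mza_uh_Phi_some_iff L hz h).2 ⟨h1, h2⟩⟩

theorem mza_uh_Phi_nsmul (hA : mza_uh_AddHyp L) (k : ℕ) (z : ℂ) :
    mza_uh_Phi L ((k : ℂ) * z) = k • mza_uh_Phi L z := by
  have := map_nsmul (mza_uh_PhiHom L hA) k z
  simpa [nsmul_eq_mul] using this

theorem mza_uh_Phi_zsmul (hA : mza_uh_AddHyp L) (k : ℤ) (z : ℂ) :
    mza_uh_Phi L ((k : ℂ) * z) = k • mza_uh_Phi L z := by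
  have := map_zsmul (mza_uh_PhiHom L hA) k z
  simpa [zsmul_eq_mul] using this

end Fermat.Agent.MZ
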