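/-
MAZUR project, cell [MZ-A], sub-cell [A-UNIF] (helper2).  Prefix `mza_u_`.

Basic facts on Mathlib's Weierstrass `℘`-function of a `PeriodPair`:
* the complement of the lattice is open and preconnected;
* `℘` tends to infinity at the lattice points and is not constant;
* `℘'' = 6 ℘² - g₂ / 2` and `℘''' = 12 ℘ ℘'` off the lattice.
-/
import Mathlib

set_option autoImplicit false

open PeriodPair Filter Topology

noncomputable section

namespace Fermat.Agent.MZ

variable (L : PeriodPair)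

theorem mza_u_lattice_countable : (L.lattice : Set ℂ).Countable := by
  have : Countable L.lattice := by
    have e := L.latticeEquivProd
    exact Countable.of_equiv _ e.symm.toEquiv
  exact Set.countable_coe_iff.mp this

theorem mza_u_isPreconnected_compl_of_countable {s : Set ℂ} (hs : s.Countable) :
    IsPreconnected sᶜ := by
  have h : 1 < Module.rank ℝ ℂ := by
    rw [Complex.rank_real_complex]
    norm_num
  exact (hs.isPathConnected_compl_of_one_lt_rank h).isConnected.isPreconnected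

theorem mza_u_isPreconnected_compl_lattice : IsPreconnected (L.lattice : Set ℂ)ᶜ :=
  mza_u_isPreconnected_compl_of_countable (mza_u_lattice_countable L)

theorem mza_u_isOpen_compl_lattice : IsOpen (L.lattice : Set ℂ)ᶜ :=
  L.isClosed_lattice.isOpen_compl

theorem mza_u_not_tendsto_const_cobounded {α : Type*} {f : Filter α} [f.NeBot] (c : ℂ) :
    ¬ Tendsto (fun _ : α => c) f (Bornology.cobounded ℂ) := by
  intro h
  have h1 : ({c} : Set ℂ)ᶜ ∈ Bornology.cobounded ℂ :=
    Bornology.isBounded_def.mp Bornology.isBounded_singleton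
  have h2 := h h1
  rw [Filter.mem_map] at h2
  have h3 : (fun _ : α => c) ⁻¹' ({c} : Set ℂ)ᶜ = ∅ := by
    ext x; simp
  rw [h3] at h2
  exact (Filter.empty_mem_iff_bot.mp h2 ▸ (inferInstance : f.NeBot)).ne rfl

/-- `℘` tends to infinity at the lattice points. -/
theorem mza_u_tendsto_P_cobounded {l : ℂ} (hl : l ∈ L.lattice) :
    Tendsto ℘[L] (𝓝[≠] l) (Bornology.cobounded ℂ) := by
  rw [tendsto_cobounded_iff_meromorphicOrderAt_neg (L.meromorphic_weierstrassP l),
    L.order_weierstrassP l hl]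
  decide

/-- `℘` is not constant on the complement of the lattice. -/
theorem mza_u_P_not_const (c : ℂ) : ∃ z, z ∉ L.lattice ∧ ℘[L] z ≠ c := by
  by_contra hcon
  push Not at hcon
  have h0 : (0 : ℂ) ∈ L.lattice := L.lattice.zero_mem
  have ht := mza_u_tendsto_P_cobounded L h0
  have hev : ∀ᶠ z in 𝓝[≠] (0 : ℂ), ℘[L] z = c := by
    have := L.compl_lattice_sdiff_singleton_mem_nhds (0 : ℂ)
    filter_upwards [mem_nhdsWithin_of_mem_nhds this, self_mem_nhdsWithin] with z hz hz0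
    apply hcon
    intro hzl
    exact hz ⟨hzl, hz0⟩
  exact mza_u_not_tendsto_const_cobounded c (ht.congr' hev)

/-- the second derivative of `℘` -/
def mza_u_P2 (z : ℂ) : ℂ := deriv ℘'[L] z

/-- the third derivative of `℘` -/
def mza_u_P3 (z : ℂ) : ℂ := deriv (mza_u_P2 L) z

theorem mza_u_analyticOnNhd_P2 : AnalyticOnNhd ℂ (mza_u_P2 L) (L.lattice : Set ℂ)ᶜ :=
  L.analyticOnNhd_derivWeierstrassP.deriv

theorem mza_u_hasDerivAt_P {z : ℂ} (hz : z ∉ L.lattice) : HasDerivAt ℘[L] (℘'[L] z) z := by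
  have h := (L.analyticOnNhd_weierstrassP z hz).differentiableAt.hasDerivAt
  rwa [L.deriv_weierstrassP] at h

theorem mza_u_hasDerivAt_P1 {z : ℂ} (hz : z ∉ L.lattice) :
    HasDerivAt ℘'[L] (mza_u_P2 L z) z :=
  (L.analyticOnNhd_derivWeierstrassP z hz).differentiableAt.hasDerivAt

/-- `℘'` is not identically zero off the lattice -/
theorem mza_u_P1_not_zero : ¬ ∀ z ∈ (L.lattice : Set ℂ)ᶜ, ℘'[L] z = 0 := by
  intro h
  have hconst : ∀ z ∈ (L.lattice : Set ℂ)ᶜ, ∀ w ∈ (L.lattice : Set ℂ)ᶜ, ℘[L] z = ℘[L] w := by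
    intro z hz w hw
    refine (mza_u_isOpen_compl_lattice L).is_const_of_deriv_eq_zero
      (mza_u_isPreconnected_compl_lattice L) L.differentiableOn_weierstrassP ?_ hz hw
    intro x hx
    rw [L.deriv_weierstrassP]
    exact h x hx
  obtain ⟨z0, hz0, -⟩ := mza_u_P_not_const L 0
  obtain ⟨z1, hz1, hne⟩ := mza_u_P_not_const L (℘[L] z0)
  exact hne (hconst z1 hz1 z0 hz0)

/-- `℘'' = 6 ℘² - g₂ / 2` -/
theorem mza_u_P2_eq {z : ℂ} (hz : z ∉ L.lattice) :
    mza_u_P2 L z = 6 * ℘[L] z ^ 2 - L.g₂ / 2 := by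
  have hU := mza_u_isOpen_compl_lattice L
  have key : ∀ x ∈ (L.lattice : Set ℂ)ᶜ,
      ℘'[L] x * (2 * mza_u_P2 L x - 12 * ℘[L] x ^ 2 + L.g₂) = 0 := by
    intro x hx
    have h1 : HasDerivAt (fun y => ℘'[L] y ^ 2) (2 * ℘'[L] x ^ 1 * mza_u_P2 L x) x := by
      simpa using (mza_u_hasDerivAt_P1 L hx).fun_pow 2
    have h2 : HasDerivAt (fun y => 4 * ℘[L] y ^ 3 - L.g₂ * ℘[L] y - L.g₃)
        (4 * (3 * ℘[L] x ^ 2 * ℘'[L] x) - L.g₂ * ℘'[L] x) x := by
      have hp := mza_u_hasDerivAt_P L hx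
      have := (((hp.fun_pow 3).const_mul 4).sub (hp.const_mul L.g₂)).sub_const L.g₃
      simpa using this
    have heq : (fun y => ℘'[L] y ^ 2) =ᶠ[𝓝 x] fun y => 4 * ℘[L] y ^ 3 - L.g₂ * ℘[L] y - L.g₃ := by
      filter_upwards [hU.mem_nhds hx] with y hy
      exact L.derivWeierstrassP_sq y hy
    have h3 := h1.unique (h2.congr_of_eventuallyEq heq)
    linear_combination h3
  have han1 : AnalyticOnNhd ℂ ℘'[L] (L.lattice : Set ℂ)ᶜ := L.analyticOnNhd_derivWeierstrassP
  have han2 : AnalyticOnNhd ℂ (fun x => 2 * mza_u_P2 L x - 12 * ℘[L] x ^ 2 + L.g₂)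
      (L.lattice : Set ℂ)ᶜ := by
    intro x hx
    have h1 := mza_u_analyticOnNhd_P2 L x hx
    have h2 := L.analyticOnNhd_weierstrassP x hx
    fun_prop
  rcases han1.eq_zero_or_eq_zero_of_mul_eq_zero han2 key
    (mza_u_isPreconnected_compl_lattice L) with h | h
  · exact absurd h (mza_u_P1_not_zero L)
  · have := h z hz
    linear_combination this / 2

/-- `℘''' = 12 ℘ ℘'` -/
theorem mza_u_P3_eq {z : ℂ} (hz : z ∉ L.lattice) :
    mza_u_P3 L z = 12 * ℘[L] z * ℘'[L] z := by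
  have hU := mza_u_isOpen_compl_lattice L
  have heq : mza_u_P2 L =ᶠ[𝓝 z] fun y => 6 * ℘[L] y ^ 2 - L.g₂ / 2 := by
    filter_upwards [hU.mem_nhds hz] with y hy
    exact mza_u_P2_eq L hy
  have h2 : HasDerivAt (fun y => 6 * ℘[L] y ^ 2 - L.g₂ / 2) (6 * (2 * ℘[L] z ^ 1 * ℘'[L] z)) z := by
    have hp := mza_u_hasDerivAt_P L hz
    have := ((hp.fun_pow 2).const_mul 6).sub_const (L.g₂ / 2)
    simpa using this
  have h3 := (h2.congr_of_eventuallyEq heq).deriv
  rw [mza_u_P3, h3]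
  ring

theorem mza_u_iteratedDeriv_P_one : iteratedDeriv 1 ℘[L] = ℘'[L] := by
  rw [iteratedDeriv_one, L.deriv_weierstrassP]

theorem mza_u_iteratedDeriv_P_two : iteratedDeriv 2 ℘[L] = mza_u_P2 L := by
  rw [iteratedDeriv_succ', L.deriv_weierstrassP, iteratedDeriv_one]
  rfl

theorem mza_u_iteratedDeriv_P_three : iteratedDeriv 3 ℘[L] = mza_u_P3 L := by
  rw [iteratedDeriv_succ', L.deriv_weierstrassP, iteratedDeriv_succ', iteratedDeriv_one]
  rfl

theorem mza_u_iteratedDeriv_P1_one : iteratedDeriv 1 ℘'[L] = mza_u_P2 L := by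
  rw [iteratedDeriv_one]
  rfl

theorem mza_u_iteratedDeriv_P1_two : iteratedDeriv 2 ℘'[L] = mza_u_P3 L := by
  rw [iteratedDeriv_succ', iteratedDeriv_one]
  rfl

end Fermat.Agent.MZ
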