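/-
MAZUR project, cell [MZ-A], sub-cell [A-UNIF] (helper2).  Prefix `mza_u_`.

**Collinearity form of the addition theorem for `℘`**: for `w, z, z + w` outside the lattice the
points `(℘ z, ℘' z)`, `(℘ w, ℘' w)`, `(℘ (z+w), -℘' (z+w))` are collinear (`mza_u_collinear`).
Proof: the determinant `D_w(z)` is an elliptic function of `z` whose poles (order `≤ 3` at `0`
and at `-w`) cancel: at `0` by the Laurent expansion and the relation `℘''' = 12 ℘ ℘'`, at `-w`
by the symmetry `D_w(-z-w) = -D_w(z)`; so it is entire, bounded, constant, and `= 0`.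
-/
import Fermat.Agent.MZ.A.Unif.Basic

set_option autoImplicit false

open PeriodPair Filter Topology
open scoped Nat

noncomputable section

namespace Fermat.Agent.MZ

variable (L : PeriodPair)

/-- the collinearity determinant of `(℘ z, ℘' z)`, `(℘ w, ℘' w)`, `(℘ (z+w), -℘' (z+w))` -/
def mza_u_Dexpr (w z : ℂ) : ℂ :=
  ℘[L] z * (℘'[L] w + ℘'[L] (z + w)) - ℘'[L] z * (℘[L] w - ℘[L] (z + w))
    - ℘[L] w * ℘'[L] (z + w) - ℘'[L] w * ℘[L] (z + w)

open Classical in
/-- the collinearity determinant, with the junk value `0` at its poles -/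
def mza_u_D (w z : ℂ) : ℂ :=
  if z ∈ L.lattice ∨ z + w ∈ L.lattice then 0 else mza_u_Dexpr L w z

theorem mza_u_D_of_bad {w z : ℂ} (h : z ∈ L.lattice ∨ z + w ∈ L.lattice) : mza_u_D L w z = 0 := by
  rw [mza_u_D, if_pos h]

theorem mza_u_D_of_good {w z : ℂ} (h1 : z ∉ L.lattice) (h2 : z + w ∉ L.lattice) :
    mza_u_D L w z = mza_u_Dexpr L w z := by
  rw [mza_u_D, if_neg (by tauto)]

theorem mza_u_Dexpr_add_coe (w z : ℂ) (l : L.lattice) :
    mza_u_Dexpr L w (z + l) = mza_u_Dexpr L w z := by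
  unfold mza_u_Dexpr
  rw [add_right_comm z (l : ℂ) w]
  simp only [L.weierstrassP_add_coe, L.derivWeierstrassP_add_coe]

theorem mza_u_D_add_coe (w z : ℂ) (l : L.lattice) : mza_u_D L w (z + l) = mza_u_D L w z := by
  have h1 : z + l ∈ L.lattice ↔ z ∈ L.lattice :=
    L.lattice.toAddSubgroup.add_mem_cancel_right (y := z) l.2
  have h2 : z + l + w ∈ L.lattice ↔ z + w ∈ L.lattice := by
    rw [add_right_comm]
    exact L.lattice.toAddSubgroup.add_mem_cancel_right (y := z + w) l.2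
  by_cases h : z ∈ L.lattice ∨ z + w ∈ L.lattice
  · rw [mza_u_D_of_bad L h, mza_u_D_of_bad L (by rw [h1, h2]; exact h)]
  · push Not at h
    rw [mza_u_D_of_good L h.1 h.2, mza_u_D_of_good L (by rw [h1]; exact h.1) (by rw [h2]; exact h.2),
      mza_u_Dexpr_add_coe]

theorem mza_u_D_symm (w z : ℂ) : mza_u_D L w (-z - w) = - mza_u_D L w z := by
  have h1 : -z - w ∈ L.lattice ↔ z + w ∈ L.lattice := by
    rw [show -z - w = -(z + w) by ring]
    exact L.lattice.neg_mem_iff
  have h2 : -z - w + w ∈ L.lattice ↔ z ∈ L.lattice := by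
    rw [show -z - w + w = -z by ring]
    exact L.lattice.neg_mem_iff
  by_cases h : z ∈ L.lattice ∨ z + w ∈ L.lattice
  · rw [mza_u_D_of_bad L h, mza_u_D_of_bad L (by rw [h1, h2]; tauto)]; simp
  · push Not at h
    rw [mza_u_D_of_good L h.1 h.2, mza_u_D_of_good L (by rw [h1]; exact h.2) (by rw [h2]; exact h.1)]
    unfold mza_u_Dexpr
    rw [show -z - w + w = -z by ring, show -z - w = -(z + w) by ring]
    simp only [L.weierstrassP_neg, L.derivWeierstrassP_neg]
    ring

theorem mza_u_meromorphic_P_shift (w : ℂ) : Meromorphic (fun z => ℘[L] (z + w)) := by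
  intro x
  have h : MeromorphicAt ℘[L] ((fun z => z + w) x) := L.meromorphic_weierstrassP (x + w)
  exact h.comp_analyticAt (g := fun z => z + w) (by fun_prop)

theorem mza_u_meromorphic_P1_shift (w : ℂ) : Meromorphic (fun z => ℘'[L] (z + w)) := by
  intro x
  have h : MeromorphicAt ℘'[L] ((fun z => z + w) x) := L.meromorphic_derivWeierstrassP (x + w)
  exact h.comp_analyticAt (g := fun z => z + w) (by fun_prop)

theorem mza_u_analyticAt_P_shift {w x : ℂ} (h : x + w ∉ L.lattice) :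
    AnalyticAt ℂ (fun z => ℘[L] (z + w)) x := by
  have h1 : AnalyticAt ℂ ℘[L] ((fun z => z + w) x) := L.analyticOnNhd_weierstrassP (x + w) h
  exact h1.comp (g := ℘[L]) (f := fun z => z + w) (by fun_prop)

theorem mza_u_analyticAt_P1_shift {w x : ℂ} (h : x + w ∉ L.lattice) :
    AnalyticAt ℂ (fun z => ℘'[L] (z + w)) x := by
  have h1 : AnalyticAt ℂ ℘'[L] ((fun z => z + w) x) := L.analyticOnNhd_derivWeierstrassP (x + w) h
  exact h1.comp (g := ℘'[L]) (f := fun z => z + w) (by fun_prop)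

theorem mza_u_meromorphic_Dexpr (w : ℂ) : Meromorphic (mza_u_Dexpr L w) := by
  intro x
  have h1 : MeromorphicAt (fun z => ℘[L] z) x := L.meromorphic_weierstrassP x
  have h2 : MeromorphicAt (fun z => ℘'[L] z) x := L.meromorphic_derivWeierstrassP x
  have h3 := mza_u_meromorphic_P_shift L w x
  have h4 := mza_u_meromorphic_P1_shift L w x
  unfold mza_u_Dexpr
  generalize ℘[L] w = a
  generalize ℘'[L] w = b
  fun_prop

/-- near every point, off the point itself, `D` is given by the determinant -/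
theorem mza_u_D_eventuallyEq (w x : ℂ) : mza_u_D L w =ᶠ[𝓝[≠] x] mza_u_Dexpr L w := by
  have h1 := L.compl_lattice_sdiff_singleton_mem_nhds x
  have h2 : (fun z : ℂ => z + w) ⁻¹' (↑L.lattice \ {x + w})ᶜ ∈ 𝓝 x :=
    (continuous_add_const w).continuousAt.preimage_mem_nhds
      (L.compl_lattice_sdiff_singleton_mem_nhds (x + w))
  filter_upwards [mem_nhdsWithin_of_mem_nhds h1, mem_nhdsWithin_of_mem_nhds h2,
    self_mem_nhdsWithin] with z hz1 hz2 hz
  refine mza_u_D_of_good L (fun h => hz1 ⟨h, hz⟩) (fun h => hz2 ⟨h, ?_⟩)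
  intro h'
  exact hz (add_right_cancel h')

theorem mza_u_meromorphic_D (w : ℂ) : Meromorphic (mza_u_D L w) := fun x =>
  (mza_u_meromorphic_Dexpr L w x).congr (mza_u_D_eventuallyEq L w x).symm

/-- the numerator of `D · z³` near `0` -/
def mza_u_N (w z : ℂ) : ℂ :=
  (z ^ 1 + z ^ 3 * ℘[L - (0 : ℂ)] z) * (℘'[L] w + ℘'[L] (z + w)) +
    (2 - z ^ 3 * ℘'[L - (0 : ℂ)] z) * (℘[L] w - ℘[L] (z + w)) -
    z ^ 3 * (℘[L] w * ℘'[L] (z + w) + ℘'[L] w * ℘[L] (z + w))

theorem mza_u_D_mul_eventuallyEq {w : ℂ} (hw : w ∉ L.lattice) :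
    (mza_u_D L w * id ^ 3) =ᶠ[𝓝 0] mza_u_N L w := by
  have h1 := L.compl_lattice_sdiff_singleton_mem_nhds (0 : ℂ)
  have h2 : (fun z : ℂ => z + w) ⁻¹' (L.lattice : Set ℂ)ᶜ ∈ 𝓝 (0 : ℂ) :=
    (continuous_add_const w).continuousAt.preimage_mem_nhds
      ((mza_u_isOpen_compl_lattice L).mem_nhds (by simpa using hw))
  filter_upwards [h1, h2] with z hz1 hz2
  by_cases hz0 : z = 0
  · subst hz0
    simp [mza_u_N]
  have hzL : z ∉ L.lattice := fun h => hz1 ⟨h, hz0⟩
  have hzw : z + w ∉ L.lattice := hz2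
  simp only [Pi.mul_apply, Pi.pow_apply, id_eq, mza_u_D_of_good L hzL hzw, mza_u_Dexpr, mza_u_N,
    ← ZeroMemClass.coe_zero L.lattice, L.derivWeierstrassPExcept_def, L.weierstrassPExcept_def]
  simp
  field_simp
  ring


theorem mza_u_analyticAt_N {w : ℂ} (hw : w ∉ L.lattice) : AnalyticAt ℂ (mza_u_N L w) 0 := by
  have h1 : AnalyticAt ℂ (fun z => ℘[L] (z + w)) 0 :=
    mza_u_analyticAt_P_shift L (by simpa using hw)
  have h2 : AnalyticAt ℂ (fun z => ℘'[L] (z + w)) 0 :=
    mza_u_analyticAt_P1_shift L (by simpa using hw)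
  unfold mza_u_N
  generalize ℘[L] w = a
  generalize ℘'[L] w = b
  fun_prop

attribute [local fun_prop] AnalyticAt.contDiffAt in
theorem mza_u_order_aux (T T' : ℂ → ℂ) (hT : AnalyticAt ℂ T 0) (hT' : AnalyticAt ℂ T' 0)
    (a b c d : ℂ) (hT0 : iteratedDeriv 0 T 0 = a) (hT1 : iteratedDeriv 1 T 0 = b)
    (hT2 : iteratedDeriv 2 T 0 = c) (hT3 : iteratedDeriv 3 T 0 = d)
    (hT'0 : iteratedDeriv 0 T' 0 = b) (hT'1 : iteratedDeriv 1 T' 0 = c)
    (hT'2 : iteratedDeriv 2 T' 0 = d) (hd : d = 12 * a * b) :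
    ∀ i < 4, iteratedDeriv i (fun z : ℂ => (z ^ 1 + z ^ 3 * ℘[L - (0:ℂ)] z) * (b + T' z) +
      (2 - z ^ 3 * ℘'[L - (0:ℂ)] z) * (a - T z) - z ^ 3 * (a * T' z + b * T z)) 0 = 0 := by
  intro i hi
  have h3 : L.G 3 = 0 := L.G_eq_zero_of_odd 3 (by decide)
  interval_cases i
  all_goals
    simp (discharger := fun_prop) only [iteratedDeriv_fun_add, iteratedDeriv_fun_sub,
      iteratedDeriv_fun_mul, iteratedDeriv_const, iteratedDeriv_fun_pow_zero,
      iteratedDeriv_derivWeierstrassPExcept_self, iteratedDeriv_weierstrassPExcept_self]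
    simp [Finset.sum_range_succ, hT0, hT1, hT2, hT3, hT'0, hT'1, hT'2, h3, Nat.factorial]
  · ring
  · rw [hd]; ring

theorem mza_u_iteratedDeriv_N {w : ℂ} (hw : w ∉ L.lattice) :
    ∀ i < 4, iteratedDeriv i (mza_u_N L w) 0 = 0 := by
  have hT : AnalyticAt ℂ (fun z => ℘[L] (z + w)) 0 :=
    mza_u_analyticAt_P_shift L (by simpa using hw)
  have hT' : AnalyticAt ℂ (fun z => ℘'[L] (z + w)) 0 :=
    mza_u_analyticAt_P1_shift L (by simpa using hw)
  have hT0 : iteratedDeriv 0 (fun z => ℘[L] (z + w)) 0 = ℘[L] w := by simp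
  have hT1 : iteratedDeriv 1 (fun z => ℘[L] (z + w)) 0 = ℘'[L] w := by
    rw [iteratedDeriv_comp_add_const, mza_u_iteratedDeriv_P_one]; simp
  have hT2 : iteratedDeriv 2 (fun z => ℘[L] (z + w)) 0 = mza_u_P2 L w := by
    rw [iteratedDeriv_comp_add_const, mza_u_iteratedDeriv_P_two]; simp
  have hT3 : iteratedDeriv 3 (fun z => ℘[L] (z + w)) 0 = mza_u_P3 L w := by
    rw [iteratedDeriv_comp_add_const, mza_u_iteratedDeriv_P_three]; simp
  have hT'0 : iteratedDeriv 0 (fun z => ℘'[L] (z + w)) 0 = ℘'[L] w := by simp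
  have hT'1 : iteratedDeriv 1 (fun z => ℘'[L] (z + w)) 0 = mza_u_P2 L w := by
    rw [iteratedDeriv_comp_add_const, mza_u_iteratedDeriv_P1_one]; simp
  have hT'2 : iteratedDeriv 2 (fun z => ℘'[L] (z + w)) 0 = mza_u_P3 L w := by
    rw [iteratedDeriv_comp_add_const, mza_u_iteratedDeriv_P1_two]; simp
  exact mza_u_order_aux L _ _ hT hT' _ _ _ _ hT0 hT1 hT2 hT3 hT'0 hT'1 hT'2 (mza_u_P3_eq L hw)

/-- `D` is analytic at `0` -/
theorem mza_u_analyticAt_D_zero {w : ℂ} (hw : w ∉ L.lattice) : AnalyticAt ℂ (mza_u_D L w) 0 := by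
  refine .of_meromorphicOrderAt_pos (one_pos.trans_le ?_)
    (mza_u_D_of_bad L (Or.inl L.lattice.zero_mem))
  have hm := mza_u_meromorphic_D L w 0
  suffices 4 ≤ meromorphicOrderAt (mza_u_D L w * id ^ 3) 0 by
    rw [meromorphicOrderAt_mul hm (by fun_prop),
      meromorphicOrderAt_pow (by fun_prop)] at this
    rw [← WithTop.add_le_add_iff_right (z := 3) (by simp)]
    simpa [-add_le_add_iff_left_of_ne_top] using! this
  rw [meromorphicOrderAt_congr ((mza_u_D_mul_eventuallyEq L hw).filter_mono nhdsWithin_le_nhds),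
    AnalyticAt.meromorphicOrderAt_eq (mza_u_analyticAt_N L hw)]
  exact ENat.monotone_map_iff.mpr Nat.mono_cast
    ((natCast_le_analyticOrderAt_iff_iteratedDeriv_eq_zero (mza_u_analyticAt_N L hw)).mpr
      (mza_u_iteratedDeriv_N L hw))


theorem mza_u_D_sub_coe (w z : ℂ) (l : L.lattice) : mza_u_D L w (z - l) = mza_u_D L w z := by
  rw [← mza_u_D_add_coe L w (z - l) l, sub_add_cancel]

/-- `D` is analytic at the lattice points -/
theorem mza_u_analyticAt_D_lattice {w : ℂ} (hw : w ∉ L.lattice) {x : ℂ} (hx : x ∈ L.lattice) :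
    AnalyticAt ℂ (mza_u_D L w) x := by
  lift x to L.lattice using hx
  have h := mza_u_analyticAt_D_zero L hw
  rw [← sub_self x.1] at h
  have h2 := h.comp (f := (· - x.1)) (by fun_prop)
  refine h2.congr (Filter.Eventually.of_forall fun z => ?_)
  simp only [Function.comp_apply]
  exact mza_u_D_sub_coe L w z x

/-- `D` is analytic at the points `x` with `x + w` in the lattice -/
theorem mza_u_analyticAt_D_shift {w : ℂ} (hw : w ∉ L.lattice) {x : ℂ} (hx : x + w ∈ L.lattice) :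
    AnalyticAt ℂ (mza_u_D L w) x := by
  have hx' : -x - w ∈ L.lattice := by
    rw [show -x - w = -(x + w) by ring]
    exact L.lattice.neg_mem hx
  have h := mza_u_analyticAt_D_lattice L hw hx'
  have h2 : AnalyticAt ℂ (fun z => - mza_u_D L w (-z - w)) x :=
    (h.comp (f := fun z => -z - w) (by fun_prop)).neg
  refine h2.congr (Filter.Eventually.of_forall fun z => ?_)
  simp only
  rw [mza_u_D_symm, neg_neg]

theorem mza_u_analyticAt_D {w : ℂ} (hw : w ∉ L.lattice) (x : ℂ) :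
    AnalyticAt ℂ (mza_u_D L w) x := by
  by_cases h1 : x ∈ L.lattice
  · exact mza_u_analyticAt_D_lattice L hw h1
  by_cases h2 : x + w ∈ L.lattice
  · exact mza_u_analyticAt_D_shift L hw h2
  have ha : AnalyticAt ℂ (mza_u_Dexpr L w) x := by
    have e1 := L.analyticOnNhd_weierstrassP x h1
    have e2 := L.analyticOnNhd_derivWeierstrassP x h1
    have e3 := mza_u_analyticAt_P_shift L h2
    have e4 := mza_u_analyticAt_P1_shift L h2
    unfold mza_u_Dexpr
    generalize ℘[L] w = a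
    generalize ℘'[L] w = b
    fun_prop
  refine ha.congr ?_
  have o1 := (mza_u_isOpen_compl_lattice L).mem_nhds h1
  have o2 : (fun z : ℂ => z + w) ⁻¹' (L.lattice : Set ℂ)ᶜ ∈ 𝓝 x :=
    (continuous_add_const w).continuousAt.preimage_mem_nhds
      ((mza_u_isOpen_compl_lattice L).mem_nhds h2)
  filter_upwards [o1, o2] with z hz1 hz2
  exact (mza_u_D_of_good L hz1 hz2).symm

/-- **Liouville**: the collinearity determinant vanishes identically. -/
theorem mza_u_D_eq_zero {w : ℂ} (hw : w ∉ L.lattice) (z : ℂ) : mza_u_D L w z = 0 := by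
  have hd : Differentiable ℂ (mza_u_D L w) := fun x => (mza_u_analyticAt_D L hw x).differentiableAt
  have hb := (IsZLattice.isCompact_range_of_periodic L.lattice _ hd.continuous
    fun z l hl => by lift l to L.lattice using hl; exact mza_u_D_add_coe L w z l).isBounded
  exact (hd.apply_eq_apply_of_bounded hb z 0).trans
    (mza_u_D_of_bad L (Or.inl L.lattice.zero_mem))

/-- **Collinearity** of `(℘ z, ℘' z)`, `(℘ w, ℘' w)`, `(℘ (z+w), -℘' (z+w))`. -/
theorem mza_u_collinear {w z : ℂ} (hw : w ∉ L.lattice) (hz : z ∉ L.lattice)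
    (hzw : z + w ∉ L.lattice) :
    ℘[L] z * (℘'[L] w + ℘'[L] (z + w)) - ℘'[L] z * (℘[L] w - ℘[L] (z + w))
      - ℘[L] w * ℘'[L] (z + w) - ℘'[L] w * ℘[L] (z + w) = 0 := by
  have h := mza_u_D_eq_zero L hw z
  rwa [mza_u_D_of_good L hz hzw] at h

end Fermat.Agent.MZ
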