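/-
MAZUR project, cell [MZ-A], sub-cell [A-UNIF] (helper2).  Prefix `mza_u_`.  Mathlib only.

**The addition theorem for the Weierstrass `℘`-function.**

* `mza_u_add_poly` : `4 (℘(z+w) + ℘ z + ℘ w) (℘ z - ℘ w)² = (℘' z - ℘' w)²` for `z, w, z+w ∉ L`;
* `mza_u_add_P`, `mza_u_add_P1` : the formulas for `℘ (z+w)` and `℘' (z+w) / 2` when `℘ z ≠ ℘ w`
  (the chord formulas of the curve `Y² = X³ - (g₂/4) X - g₃/4` with `X = ℘`, `Y = ℘'/2`).

Proof: collinearity (`Collinear.lean`, Liouville) + the cubic has three points on a line +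
the identity theorem to remove the genericity assumptions.
-/
import Fermat.Agent.MZ.A.Unif.Collinear

set_option autoImplicit false

open PeriodPair Filter Topology

noncomputable section

namespace Fermat.Agent.MZ

variable (L : PeriodPair)

/-- pure algebra: a third point of the cubic `y² = 4x³ - g₂ x - g₃` on the line through two points
with different abscissae, different from both, has abscissa `m²/4 - x₁ - x₂`. -/
theorem mza_u_add_alg {g₂ g₃ x₁ x₂ x₃ y₁ y₂ y₃ : ℂ}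
    (E1 : y₁ ^ 2 = 4 * x₁ ^ 3 - g₂ * x₁ - g₃) (E2 : y₂ ^ 2 = 4 * x₂ ^ 3 - g₂ * x₂ - g₃)
    (E3 : y₃ ^ 2 = 4 * x₃ ^ 3 - g₂ * x₃ - g₃)
    (hc : x₁ * (y₂ + y₃) - y₁ * (x₂ - x₃) - x₂ * y₃ - y₂ * x₃ = 0)
    (h31 : x₃ ≠ x₁) (h32 : x₃ ≠ x₂) :
    4 * (x₃ + x₁ + x₂) * (x₁ - x₂) ^ 2 = (y₁ - y₂) ^ 2 := by
  have hA3 : (y₁ - y₂) ^ 2 * (x₃ - x₁) + 2 * (y₁ - y₂) * y₁ * (x₁ - x₂)
      - (x₁ - x₂) ^ 2 * (4 * (x₃ ^ 2 + x₃ * x₁ + x₁ ^ 2) - g₂) = 0 := by
    have h : (x₃ - x₁) * ((y₁ - y₂) ^ 2 * (x₃ - x₁) + 2 * (y₁ - y₂) * y₁ * (x₁ - x₂)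
      - (x₁ - x₂) ^ 2 * (4 * (x₃ ^ 2 + x₃ * x₁ + x₁ ^ 2) - g₂)) = 0 := by
      linear_combination (((y₁ - y₂) * (x₃ - x₁) + y₁ * (x₁ - x₂)) - y₃ * (x₁ - x₂)) * hc
        + (x₁ - x₂) ^ 2 * E3 - (x₁ - x₂) ^ 2 * E1
    rcases mul_eq_zero.mp h with h | h
    · exact absurd (sub_eq_zero.mp h) h31
    · exact h
  have hA2 : (y₁ - y₂) ^ 2 * (x₂ - x₁) + 2 * (y₁ - y₂) * y₁ * (x₁ - x₂)
      - (x₁ - x₂) ^ 2 * (4 * (x₂ ^ 2 + x₂ * x₁ + x₁ ^ 2) - g₂) = 0 := by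
    linear_combination (x₁ - x₂) * E1 - (x₁ - x₂) * E2
  have h : (x₃ - x₂) * ((y₁ - y₂) ^ 2 - 4 * (x₃ + x₁ + x₂) * (x₁ - x₂) ^ 2) = 0 := by
    linear_combination hA3 - hA2
  rcases mul_eq_zero.mp h with h | h
  · exact absurd (sub_eq_zero.mp h) h32
  · linear_combination -h

/-- the common domain of `℘ z` and `℘ (z + w)` -/
def mza_u_U (w : ℂ) : Set ℂ := {z | z ∉ L.lattice ∧ z + w ∉ L.lattice}

theorem mza_u_U_eq (w : ℂ) :
    mza_u_U L w = ((L.lattice : Set ℂ) ∪ (fun z => z + w) ⁻¹' (L.lattice : Set ℂ))ᶜ := by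
  ext z
  simp [mza_u_U]

theorem mza_u_isOpen_U (w : ℂ) : IsOpen (mza_u_U L w) := by
  rw [mza_u_U_eq]
  exact (L.isClosed_lattice.union
    (L.isClosed_lattice.preimage (continuous_id.add continuous_const))).isOpen_compl

theorem mza_u_isPreconnected_U (w : ℂ) : IsPreconnected (mza_u_U L w) := by
  rw [mza_u_U_eq]
  refine mza_u_isPreconnected_compl_of_countable ((mza_u_lattice_countable L).union ?_)
  exact (mza_u_lattice_countable L).preimage_of_injOn (fun a _ b _ h => add_right_cancel h)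

/-- a punctured neighbourhood of `0` lies in the domain -/
theorem mza_u_U_mem_nhdsNE_zero {w : ℂ} (hw : w ∉ L.lattice) : mza_u_U L w ∈ 𝓝[≠] (0 : ℂ) := by
  have h1 := L.compl_lattice_sdiff_singleton_mem_nhds (0 : ℂ)
  have h2 : {z : ℂ | z + w ∉ L.lattice} ∈ 𝓝 (0 : ℂ) := by
    have hc : ContinuousAt (fun z : ℂ => z + w) 0 := (continuous_id.add continuous_const).continuousAt
    have : (L.lattice : Set ℂ)ᶜ ∈ 𝓝 ((fun z : ℂ => z + w) 0) := by
      simp only [zero_add]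
      exact (mza_u_isOpen_compl_lattice L).mem_nhds hw
    exact hc this
  filter_upwards [mem_nhdsWithin_of_mem_nhds h1, mem_nhdsWithin_of_mem_nhds h2,
    self_mem_nhdsWithin] with z hz1 hz2 hz0
  exact ⟨fun hzl => hz1 ⟨hzl, hz0⟩, hz2⟩

/-- a punctured neighbourhood of `-w` lies in the domain -/
theorem mza_u_U_mem_nhdsNE_neg {w : ℂ} (hw : w ∉ L.lattice) : mza_u_U L w ∈ 𝓝[≠] (-w) := by
  have hw' : -w ∉ L.lattice := fun h => hw (by simpa using L.lattice.neg_mem h)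
  have h1 : (L.lattice : Set ℂ)ᶜ ∈ 𝓝 (-w) := (mza_u_isOpen_compl_lattice L).mem_nhds hw'
  have h2 : {z : ℂ | z + w ∉ (L.lattice : Set ℂ) \ {0}} ∈ 𝓝 (-w) := by
    have hc : ContinuousAt (fun z : ℂ => z + w) (-w) :=
      (continuous_id.add continuous_const).continuousAt
    have : ((L.lattice : Set ℂ) \ {0})ᶜ ∈ 𝓝 ((fun z : ℂ => z + w) (-w)) := by
      simp only [neg_add_cancel]
      exact L.compl_lattice_sdiff_singleton_mem_nhds (0 : ℂ)
    exact hc this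
  filter_upwards [mem_nhdsWithin_of_mem_nhds h1, mem_nhdsWithin_of_mem_nhds h2,
    self_mem_nhdsWithin] with z hz1 hz2 hz0
  refine ⟨hz1, fun hzl => hz2 ⟨hzl, ?_⟩⟩
  intro h0
  apply hz0
  have : z + w = 0 := h0
  show z = -w
  linear_combination this

theorem mza_u_analyticOnNhd_P_U (w : ℂ) : AnalyticOnNhd ℂ ℘[L] (mza_u_U L w) :=
  fun z hz => L.analyticOnNhd_weierstrassP z hz.1

theorem mza_u_analyticOnNhd_P1_U (w : ℂ) : AnalyticOnNhd ℂ ℘'[L] (mza_u_U L w) :=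
  fun z hz => L.analyticOnNhd_derivWeierstrassP z hz.1

theorem mza_u_analyticOnNhd_Ps_U (w : ℂ) :
    AnalyticOnNhd ℂ (fun z => ℘[L] (z + w)) (mza_u_U L w) :=
  fun _ hz => mza_u_analyticAt_P_shift L hz.2

theorem mza_u_analyticOnNhd_P1s_U (w : ℂ) :
    AnalyticOnNhd ℂ (fun z => ℘'[L] (z + w)) (mza_u_U L w) :=
  fun _ hz => mza_u_analyticAt_P1_shift L hz.2

/-- `℘ z - ℘ w` does not vanish identically -/
theorem mza_u_ne_a {w : ℂ} (hw : w ∉ L.lattice) :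
    ¬ ∀ z ∈ mza_u_U L w, ℘[L] z - ℘[L] w = 0 := by
  intro h
  have ht := mza_u_tendsto_P_cobounded L L.lattice.zero_mem
  have hev : ∀ᶠ z in 𝓝[≠] (0 : ℂ), ℘[L] z = ℘[L] w := by
    filter_upwards [mza_u_U_mem_nhdsNE_zero L hw] with z hz
    exact sub_eq_zero.mp (h z hz)
  exact mza_u_not_tendsto_const_cobounded _ (ht.congr' hev)

/-- `℘ (z + w) - ℘ z` does not vanish identically -/
theorem mza_u_ne_b {w : ℂ} (hw : w ∉ L.lattice) :
    ¬ ∀ z ∈ mza_u_U L w, ℘[L] (z + w) - ℘[L] z = 0 := by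
  intro h
  have ht := mza_u_tendsto_P_cobounded L L.lattice.zero_mem
  have hev : ∀ᶠ z in 𝓝[≠] (0 : ℂ), ℘[L] z = ℘[L] (z + w) := by
    filter_upwards [mza_u_U_mem_nhdsNE_zero L hw] with z hz
    exact (sub_eq_zero.mp (h z hz)).symm
  have hc : Tendsto (fun z => ℘[L] (z + w)) (𝓝[≠] (0 : ℂ)) (𝓝 (℘[L] (0 + w))) :=
    ((mza_u_analyticAt_P_shift L (x := 0) (by simpa using hw)).continuousAt.tendsto).mono_left
      nhdsWithin_le_nhds
  exact hc.not_tendsto (Metric.disjoint_nhds_cobounded _) (ht.congr' hev)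

/-- `℘ (z + w) - ℘ w` does not vanish identically -/
theorem mza_u_ne_c {w : ℂ} (hw : w ∉ L.lattice) :
    ¬ ∀ z ∈ mza_u_U L w, ℘[L] (z + w) - ℘[L] w = 0 := by
  intro h
  have ht := mza_u_tendsto_P_cobounded L L.lattice.zero_mem
  have hshift : Tendsto (fun z : ℂ => z + w) (𝓝[≠] (-w)) (𝓝[≠] (0 : ℂ)) := by
    refine tendsto_nhdsWithin_of_tendsto_nhds_of_eventually_within _ ?_ ?_
    · have : Tendsto (fun z : ℂ => z + w) (𝓝 (-w)) (𝓝 (-w + w)) :=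
        (continuous_id.add continuous_const).tendsto _
      rw [neg_add_cancel] at this
      exact this.mono_left nhdsWithin_le_nhds
    · filter_upwards [self_mem_nhdsWithin] with z hz h0
      apply hz
      have : z + w = 0 := h0
      show z = -w
      linear_combination this
  have ht2 : Tendsto (fun z => ℘[L] (z + w)) (𝓝[≠] (-w)) (Bornology.cobounded ℂ) :=
    ht.comp hshift
  have hev : ∀ᶠ z in 𝓝[≠] (-w), ℘[L] (z + w) = ℘[L] w := by
    filter_upwards [mza_u_U_mem_nhdsNE_neg L hw] with z hz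
    exact sub_eq_zero.mp (h z hz)
  exact mza_u_not_tendsto_const_cobounded _ (ht2.congr' hev)


/-- **The addition theorem for `℘`**, polynomial form. -/
theorem mza_u_add_poly {w z : ℂ} (hw : w ∉ L.lattice) (hz : z ∉ L.lattice)
    (hzw : z + w ∉ L.lattice) :
    4 * (℘[L] (z + w) + ℘[L] z + ℘[L] w) * (℘[L] z - ℘[L] w) ^ 2 = (℘'[L] z - ℘'[L] w) ^ 2 := by
  have hF : AnalyticOnNhd ℂ (fun z => 4 * (℘[L] (z + w) + ℘[L] z + ℘[L] w) * (℘[L] z - ℘[L] w) ^ 2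
      - (℘'[L] z - ℘'[L] w) ^ 2) (mza_u_U L w) :=
    ((analyticOnNhd_const.mul (((mza_u_analyticOnNhd_Ps_U L w).add
      (mza_u_analyticOnNhd_P_U L w)).add analyticOnNhd_const)).mul
      (((mza_u_analyticOnNhd_P_U L w).sub analyticOnNhd_const).pow 2)).sub
      (((mza_u_analyticOnNhd_P1_U L w).sub analyticOnNhd_const).pow 2)
  have hb : AnalyticOnNhd ℂ (fun z => ℘[L] (z + w) - ℘[L] z) (mza_u_U L w) :=
    (mza_u_analyticOnNhd_Ps_U L w).sub (mza_u_analyticOnNhd_P_U L w)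
  have hc : AnalyticOnNhd ℂ (fun z => ℘[L] (z + w) - ℘[L] w) (mza_u_U L w) :=
    (mza_u_analyticOnNhd_Ps_U L w).sub analyticOnNhd_const
  have hmul : ∀ z ∈ mza_u_U L w,
      (4 * (℘[L] (z + w) + ℘[L] z + ℘[L] w) * (℘[L] z - ℘[L] w) ^ 2 - (℘'[L] z - ℘'[L] w) ^ 2)
        * ((℘[L] (z + w) - ℘[L] z) * (℘[L] (z + w) - ℘[L] w)) = 0 := by
    intro z hz
    by_cases h1 : ℘[L] (z + w) - ℘[L] z = 0
    · rw [h1, zero_mul, mul_zero]
    by_cases h2 : ℘[L] (z + w) - ℘[L] w = 0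
    · rw [h2, mul_zero, mul_zero]
    have := mza_u_add_alg (L.derivWeierstrassP_sq z hz.1) (L.derivWeierstrassP_sq w hw)
      (L.derivWeierstrassP_sq (z + w) hz.2) (mza_u_collinear L hw hz.1 hz.2)
      (fun h => h1 (sub_eq_zero.mpr h)) (fun h => h2 (sub_eq_zero.mpr h))
    rw [this, sub_self, zero_mul]
  rcases hF.eq_zero_or_eq_zero_of_mul_eq_zero (hb.mul hc) hmul (mza_u_isPreconnected_U L w)
    with h | h
  · exact sub_eq_zero.mp (h z ⟨hz, hzw⟩)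
  · rcases hb.eq_zero_or_eq_zero_of_mul_eq_zero hc h (mza_u_isPreconnected_U L w) with h | h
    · exact absurd h (mza_u_ne_b L hw)
    · exact absurd h (mza_u_ne_c L hw)

/-- **The addition theorem for `℘`**: `℘ (z + w) = ¼ ((℘' z - ℘' w)/(℘ z - ℘ w))² - ℘ z - ℘ w`. -/
theorem mza_u_add_P {w z : ℂ} (hw : w ∉ L.lattice) (hz : z ∉ L.lattice)
    (hzw : z + w ∉ L.lattice) (hne : ℘[L] z ≠ ℘[L] w) :
    ℘[L] (z + w) = ((℘'[L] z - ℘'[L] w) / (2 * (℘[L] z - ℘[L] w))) ^ 2 - ℘[L] z - ℘[L] w := by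
  have h := mza_u_add_poly L hw hz hzw
  have hd : ℘[L] z - ℘[L] w ≠ 0 := sub_ne_zero.mpr hne
  field_simp
  linear_combination h

/-- **The addition theorem for `℘'`** (collinearity solved for `℘' (z + w)`). -/
theorem mza_u_add_P1 {w z : ℂ} (hw : w ∉ L.lattice) (hz : z ∉ L.lattice)
    (hzw : z + w ∉ L.lattice) (hne : ℘[L] z ≠ ℘[L] w) :
    ℘'[L] (z + w) / 2 = -((℘'[L] z - ℘'[L] w) / (2 * (℘[L] z - ℘[L] w)) * (℘[L] (z + w) - ℘[L] z)
      + ℘'[L] z / 2) := by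
  have h := mza_u_collinear L hw hz hzw
  have hd : ℘[L] z - ℘[L] w ≠ 0 := sub_ne_zero.mpr hne
  field_simp
  linear_combination h

end Fermat.Agent.MZ
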