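/-
MAZUR project, cell [MZ-A], sub-cell [A-UNIF] (helper2).  Prefix `mza_u_`.

GLUE: helper7's `mza_uh_AddHyp` (hypothesis of `PhiHom.lean`) is proved by the addition theorem of
`Add.lean`; hence the CLOSED forms of the Weierstrass uniformisation
`Φ : ℂ → E_L(ℂ)`, `E_L : Y² = X³ - (g₂/4) X - g₃/4`:

* `mza_u_addHyp L : mza_uh_AddHyp L`;
* `mza_u_Phi_add`, `mza_u_PhiHom`, `mza_u_Phi_inj`, `mza_u_Phi_nsmul`, `mza_u_Phi_zsmul`
  (the kernel and surjectivity, `mza_uh_Phi_eq_zero_iff`, `mza_uh_Phi_surjective`, are hypothesis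
  free already in `PhiHom.lean`).
-/
import Fermat.Agent.MZ.A.Unif.Add
import Fermat.Agent.MZ.A.Unif.PhiHom

set_option autoImplicit false

open PeriodPair

noncomputable section

namespace Fermat.Agent.MZ

variable (L : PeriodPair)

/-- the generic addition theorem, in the shape consumed by `PhiHom.lean` -/
theorem mza_u_addHyp : mza_uh_AddHyp L := fun _ _ hz hw hzw hne =>
  ⟨mza_u_add_P L hw hz hzw hne, mza_u_add_P1 L hw hz hzw hne⟩

/-- **`Φ` is additive** -/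
theorem mza_u_Phi_add (z w : ℂ) :
    mza_uh_Phi L (z + w) = mza_uh_Phi L z + mza_uh_Phi L w :=
  mza_uh_Phi_add (mza_u_addHyp L) z w

/-- `Φ` as a group homomorphism `ℂ →+ E_L(ℂ)` -/
def mza_u_PhiHom : ℂ →+ (mza_uh_curve L).toAffine.Point := mza_uh_PhiHom L (mza_u_addHyp L)

@[simp] theorem mza_u_PhiHom_apply (z : ℂ) : mza_u_PhiHom L z = mza_uh_Phi L z := rfl

/-- `Φ z = Φ w ↔ z ≡ w` mod `L` -/
theorem mza_u_Phi_inj (z w : ℂ) : mza_uh_Phi L z = mza_uh_Phi L w ↔ z - w ∈ L.lattice :=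
  mza_uh_Phi_inj L (mza_u_addHyp L) z w

theorem mza_u_Phi_nsmul (k : ℕ) (z : ℂ) : mza_uh_Phi L ((k : ℂ) * z) = k • mza_uh_Phi L z :=
  mza_uh_Phi_nsmul L (mza_u_addHyp L) k z

theorem mza_u_Phi_zsmul (k : ℤ) (z : ℂ) : mza_uh_Phi L ((k : ℂ) * z) = k • mza_uh_Phi L z :=
  mza_uh_Phi_zsmul L (mza_u_addHyp L) k z

theorem mza_u_PhiHom_surjective : Function.Surjective (mza_u_PhiHom L) :=
  mza_uh_Phi_surjective L

theorem mza_u_PhiHom_ker (z : ℂ) : mza_u_PhiHom L z = 0 ↔ z ∈ L.lattice :=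
  mza_uh_Phi_eq_zero_iff L z

end Fermat.Agent.MZ
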