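/-
MAZUR project, cell [MZ-A], sub-cell [A-UNIF] (helper2).  Prefix `mza_u_`.

**The discriminant `g₂³ - 27 g₃²` of a lattice does not vanish** (`mza_u_disc_ne_zero`): a double
root `a` of `4 x³ - g₂ x - g₃` is a value of `℘` at some `z₀` (surjectivity); then `u = ℘ - a`
satisfies `(u')² = 4 u² (u + 3 a)` near `z₀`, impossible by comparing vanishing orders.
-/
import Fermat.Agent.MZ.A.Unif.Basic
import Fermat.Agent.MZ.A.Unif.Surj

set_option autoImplicit false

open PeriodPair Filter Topology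

noncomputable section

namespace Fermat.Agent.MZ

variable (L : PeriodPair)

/-- `℘` is not locally constant -/
theorem mza_u_P_not_eventually_const {z₀ : ℂ} (hz₀ : z₀ ∉ L.lattice) (a : ℂ) :
    ¬ ∀ᶠ z in 𝓝 z₀, ℘[L] z = a := by
  intro h
  have h1 : Set.EqOn ℘[L] (fun _ => a) (L.lattice : Set ℂ)ᶜ :=
    L.analyticOnNhd_weierstrassP.eqOn_of_preconnected_of_eventuallyEq analyticOnNhd_const
      (mza_u_isPreconnected_compl_lattice L) hz₀ h
  obtain ⟨z, hz, hne⟩ := mza_u_P_not_const L a
  exact hne (h1 hz)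

/-- a double root of `4 x³ - g₂ x - g₃` leads to a contradiction -/
theorem mza_u_no_double_root (a : ℂ) (h2 : 12 * a ^ 2 = L.g₂) (h3 : -8 * a ^ 3 = L.g₃) : False := by
  obtain ⟨z₀, hz₀, hP⟩ := mza_us_P_surj L a
  have hU := (mza_u_isOpen_compl_lattice L).mem_nhds hz₀
  have hanP : AnalyticAt ℂ ℘[L] z₀ := L.analyticOnNhd_weierstrassP z₀ hz₀
  have hanP1 : AnalyticAt ℂ ℘'[L] z₀ := L.analyticOnNhd_derivWeierstrassP z₀ hz₀
  set u : ℂ → ℂ := fun z => ℘[L] z - a with hu
  have hanu : AnalyticAt ℂ u z₀ := hanP.sub analyticAt_const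
  -- the order of `u = ℘ - a` at `z₀`
  have ho1 : analyticOrderAt ℘'[L] z₀ + 1 = analyticOrderAt u z₀ := by
    have := hanP.analyticOrderAt_deriv_add_one
    rwa [L.deriv_weierstrassP, hP] at this
  have htop : analyticOrderAt u z₀ ≠ ⊤ := by
    rw [Ne, analyticOrderAt_eq_top]
    intro h
    exact mza_u_P_not_eventually_const L hz₀ a (h.mono fun z hz => sub_eq_zero.mp hz)
  -- the differential equation
  have hode : (℘'[L] ^ 2) =ᶠ[𝓝 z₀] ((fun _ => (4 : ℂ)) * u ^ 2) * (u + fun _ => 3 * a) := by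
    filter_upwards [hU] with z hz
    simp only [Pi.pow_apply, Pi.mul_apply, Pi.add_apply, hu]
    rw [L.derivWeierstrassP_sq z hz, ← h2, ← h3]
    ring
  have e1 : analyticOrderAt (℘'[L] ^ 2) z₀ = 2 * analyticOrderAt ℘'[L] z₀ := by
    rw [analyticOrderAt_pow hanP1 2]; simp [two_mul]
  have e2 : analyticOrderAt (((fun _ => (4 : ℂ)) * u ^ 2) * (u + fun _ => 3 * a)) z₀ =
      2 * analyticOrderAt u z₀ + analyticOrderAt (u + fun _ => 3 * a) z₀ := by
    rw [analyticOrderAt_mul (analyticAt_const.mul (hanu.pow 2)) (hanu.add analyticAt_const),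
      analyticOrderAt_mul analyticAt_const (hanu.pow 2), analyticOrderAt_pow hanu 2]
    have : analyticOrderAt (fun _ : ℂ => (4 : ℂ)) z₀ = 0 := by
      rw [analyticAt_const.analyticOrderAt_eq_zero]; norm_num
    rw [this]; simp [two_mul]
  have e3 := analyticOrderAt_congr hode
  rw [e1, e2] at e3
  lift analyticOrderAt u z₀ to ℕ using htop with n hn
  have h1top : analyticOrderAt ℘'[L] z₀ ≠ ⊤ := by
    intro h; rw [h] at ho1; simp at ho1
  lift analyticOrderAt ℘'[L] z₀ to ℕ using h1top with m hm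
  have ho1' : m + 1 = n := by exact_mod_cast ho1
  have h3top : analyticOrderAt (u + fun _ => 3 * a) z₀ ≠ ⊤ := by
    intro h; rw [h] at e3; simp at e3
    exact absurd e3 (by exact_mod_cast ENat.natCast_ne_top (2 * m))
  lift analyticOrderAt (u + fun _ => 3 * a) z₀ to ℕ using h3top with k hk
  have e3' : 2 * m = 2 * n + k := by exact_mod_cast e3
  omega

/-- **the discriminant of a lattice does not vanish** -/
theorem mza_u_disc_ne_zero : L.g₂ ^ 3 - 27 * L.g₃ ^ 2 ≠ 0 := by
  intro h
  by_cases h2 : L.g₂ = 0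
  · have h3 : L.g₃ = 0 := by
      rw [h2] at h
      have : L.g₃ ^ 2 = 0 := by linear_combination (-1 / 27 : ℂ) * h
      exact pow_eq_zero_iff (by norm_num) |>.mp this
    exact mza_u_no_double_root L 0 (by rw [h2]; ring) (by rw [h3]; ring)
  · refine mza_u_no_double_root L (-3 * L.g₃ / (2 * L.g₂)) ?_ ?_
    · field_simp
      linear_combination (-4 : ℂ) * h
    · have h3 : L.g₃ ≠ 0 := by
        intro h3
        rw [h3] at h
        have : L.g₂ ^ 3 = 0 := by linear_combination h
        exact h2 (pow_eq_zero_iff (by norm_num) |>.mp this)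
      field_simp
      linear_combination (-8 : ℂ) * h

end Fermat.Agent.MZ
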