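/-
MAZUR / [MZ-A] / [A-UNIF] (helper25): the ADDITION THEOREM for Mathlib's Weierstrass `℘` by EULER'S
METHOD (`mza_ue_add`).

(a) `deriv ℘' = 6 ℘² - g₂/2` off the lattice;
(b) for fixed `s ∉ L` the coordinates `X, Y` of `Φ(z) + Φ(s - z)` have derivative `0`;
(c) on a small convex half disc at `0` they are constant, and the constants are `℘ s`, `℘' s / 2`;
(d) identity theorem on the connected set `ℂ \ (L ∪ (s - L))`.

Mathlib + `MZ/A/Unif/Surj.lean` (helper7: `℘` is surjective).  Prefix `mza_ue_`.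
-/
import Mathlib
import Fermat.Agent.MZ.A.Unif.Surj

set_option autoImplicit false

open Complex Filter Topology

namespace Fermat.Agent.MZ

variable (L : PeriodPair)

/-! ### connectedness -/

theorem mza_ue_countable_lattice : (L.lattice : Set ℂ).Countable := by
  have : Countable L.lattice := Countable.of_equiv _ L.latticeEquivProd.symm.toEquiv
  exact Set.countable_coe_iff.mp this

theorem mza_ue_isPreconnected_compl_lattice : IsPreconnected ((L.lattice : Set ℂ)ᶜ) :=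
  ((mza_ue_countable_lattice L).isPathConnected_compl_of_one_lt_rank
    (rank_real_complex ▸ Nat.one_lt_ofNat)).isConnected.isPreconnected

theorem mza_ue_isOpen_compl_lattice : IsOpen ((L.lattice : Set ℂ)ᶜ) :=
  L.isClosed_lattice.isOpen_compl

/-! ### the second derivative -/

theorem mza_ue_hasDerivAt_P {z : ℂ} (hz : z ∉ L.lattice) :
    HasDerivAt L.weierstrassP (L.derivWeierstrassP z) z := by
  have h1 : DifferentiableAt ℂ L.weierstrassP z :=
    (L.differentiableOn_weierstrassP z hz).differentiableAt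
      ((mza_ue_isOpen_compl_lattice L).mem_nhds hz)
  have h2 := h1.hasDerivAt
  rwa [L.deriv_weierstrassP] at h2

theorem mza_ue_differentiableAt_dP {z : ℂ} (hz : z ∉ L.lattice) :
    DifferentiableAt ℂ L.derivWeierstrassP z :=
  (L.differentiableOn_derivWeierstrassP z hz).differentiableAt
    ((mza_ue_isOpen_compl_lattice L).mem_nhds hz)

/-- `℘'` is not identically zero near any point off the lattice -/
theorem mza_ue_dP_not_eventually_zero {z0 : ℂ} (hz0 : z0 ∉ L.lattice) :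
    ¬ (L.derivWeierstrassP =ᶠ[𝓝 z0] 0) := by
  intro h
  have h1 : Set.EqOn L.derivWeierstrassP 0 ((L.lattice : Set ℂ)ᶜ) :=
    L.analyticOnNhd_derivWeierstrassP.eqOn_zero_of_preconnected_of_eventuallyEq_zero
      (mza_ue_isPreconnected_compl_lattice L) hz0 h
  -- then `℘` is constant off the lattice, contradicting surjectivity
  have h2 : ∀ z ∈ ((L.lattice : Set ℂ)ᶜ), deriv L.weierstrassP z = 0 := by
    intro z hz
    rw [L.deriv_weierstrassP]
    exact h1 hz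
  have h3 : ∃ a, ∀ z ∈ ((L.lattice : Set ℂ)ᶜ), L.weierstrassP z = a :=
    (mza_ue_isOpen_compl_lattice L).exists_is_const_of_deriv_eq_zero
      (mza_ue_isPreconnected_compl_lattice L) L.differentiableOn_weierstrassP
      (fun z hz => h2 z hz)
  obtain ⟨a, ha⟩ := h3
  obtain ⟨z, hz, hzv⟩ := mza_us_P_surj L (a + 1)
  have := ha z hz
  rw [hzv] at this
  exact one_ne_zero (add_left_cancel (a := a) (by rw [this, add_zero]))

/-- `℘'' = 6 ℘² - g₂/2` off the lattice -/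
theorem mza_ue_hasDerivAt_dP {z : ℂ} (hz : z ∉ L.lattice) :
    HasDerivAt L.derivWeierstrassP (6 * L.weierstrassP z ^ 2 - L.g₂ / 2) z := by
  have hU := mza_ue_isOpen_compl_lattice L
  -- the defect `f`
  set f : ℂ → ℂ := fun w => deriv L.derivWeierstrassP w - (6 * L.weierstrassP w ^ 2 - L.g₂ / 2)
    with hf
  have hfan : AnalyticOnNhd ℂ f ((L.lattice : Set ℂ)ᶜ) := by
    intro w hw
    have h1 : AnalyticAt ℂ (deriv L.derivWeierstrassP) w :=
      (L.analyticOnNhd_derivWeierstrassP w hw).deriv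
    have h2 : AnalyticAt ℂ L.weierstrassP w := L.analyticOnNhd_weierstrassP w hw
    exact h1.sub (((analyticAt_const.mul (h2.pow 2))).sub analyticAt_const)
  -- `2 ℘' f = 0` off the lattice
  have hkey : ∀ w, w ∉ L.lattice → L.derivWeierstrassP w * f w = 0 := by
    intro w hw
    have hP := mza_ue_hasDerivAt_P L hw
    have hdP := (mza_ue_differentiableAt_dP L hw).hasDerivAt
    have h1 : HasDerivAt (fun v => L.derivWeierstrassP v ^ 2)
        (2 * L.derivWeierstrassP w * deriv L.derivWeierstrassP w) w := by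
      refine (hdP.fun_pow 2).congr_deriv ?_
      push_cast
      ring
    have h2 : HasDerivAt
        (fun v => 4 * L.weierstrassP v ^ 3 - L.g₂ * L.weierstrassP v - L.g₃)
        (4 * (3 * L.weierstrassP w ^ 2 * L.derivWeierstrassP w)
          - L.g₂ * L.derivWeierstrassP w) w := by
      have h3 := ((hP.fun_pow 3).const_mul 4).sub (hP.const_mul L.g₂)
      have h4 := h3.sub_const L.g₃
      refine h4.congr_deriv ?_
      push_cast
      ring
    have h5 : (fun v => L.derivWeierstrassP v ^ 2) =ᶠ[𝓝 w]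
        (fun v => 4 * L.weierstrassP v ^ 3 - L.g₂ * L.weierstrassP v - L.g₃) := by
      filter_upwards [hU.mem_nhds hw] with v hv
      exact L.derivWeierstrassP_sq v hv
    have h6 := h1.unique (h2.congr_of_eventuallyEq h5)
    simp only [hf]
    linear_combination (1 / 2 : ℂ) * h6
  have hfz : f z = 0 := by
    by_contra hne
    have h1 : ∀ᶠ w in 𝓝 z, f w ≠ 0 := (hfan z hz).continuousAt.eventually_ne hne
    have h2 : L.derivWeierstrassP =ᶠ[𝓝 z] 0 := by
      filter_upwards [h1, hU.mem_nhds hz] with w hw hwU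
      rcases mul_eq_zero.mp (hkey w hwU) with h | h
      · exact h
      · exact absurd h hw
    exact mza_ue_dP_not_eventually_zero L hz h2
  have h3 := (mza_ue_differentiableAt_dP L hz).hasDerivAt
  have h4 : deriv L.derivWeierstrassP z = 6 * L.weierstrassP z ^ 2 - L.g₂ / 2 := by
    have := hfz
    simp only [hf] at this
    exact sub_eq_zero.mp this
  rwa [h4] at h3

/-! ### Euler's computation, abstractly -/

section core

variable {x₁ p₁ x₂ p₂ : ℂ → ℂ} {z g₂ g₃ : ℂ}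

/-- the slope `ℓ = (p₁ - p₂) / (2 (x₁ - x₂))` has derivative `x₁ - x₂` -/
theorem mza_ue_core_slope
    (hx₁ : HasDerivAt x₁ (p₁ z) z) (hp₁ : HasDerivAt p₁ (6 * x₁ z ^ 2 - g₂ / 2) z)
    (hx₂ : HasDerivAt x₂ (-p₂ z) z) (hp₂ : HasDerivAt p₂ (-(6 * x₂ z ^ 2 - g₂ / 2)) z)
    (h1 : p₁ z ^ 2 = 4 * x₁ z ^ 3 - g₂ * x₁ z - g₃)
    (h2 : p₂ z ^ 2 = 4 * x₂ z ^ 3 - g₂ * x₂ z - g₃) (hA : x₁ z - x₂ z ≠ 0) :
    HasDerivAt (fun v => (p₁ v - p₂ v) / (2 * (x₁ v - x₂ v))) (x₁ z - x₂ z) z := by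
  have hB := hp₁.sub hp₂
  have hA' := (hx₁.sub hx₂).const_mul (2 : ℂ)
  have hA2 : (2 : ℂ) * (x₁ z - x₂ z) ≠ 0 := mul_ne_zero two_ne_zero hA
  have hA2' : (2 : ℂ) * (x₁ - x₂) z ≠ 0 := by simpa [Pi.sub_apply] using hA2
  have h := hB.div hA' hA2'
  have hfun : (fun v => (p₁ v - p₂ v) / (2 * (x₁ v - x₂ v)))
      = (p₁ - p₂) / fun y => 2 * (x₁ - x₂) y := by
    funext v
    simp [Pi.sub_apply, Pi.div_apply]
  rw [hfun]
  refine h.congr_deriv ?_
  simp only [Pi.sub_apply]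
  field_simp
  linear_combination (-2 : ℂ) * h1 + (2 : ℂ) * h2

/-- the `X`-coordinate of the sum has derivative `0` -/
theorem mza_ue_core_X
    (hx₁ : HasDerivAt x₁ (p₁ z) z) (hp₁ : HasDerivAt p₁ (6 * x₁ z ^ 2 - g₂ / 2) z)
    (hx₂ : HasDerivAt x₂ (-p₂ z) z) (hp₂ : HasDerivAt p₂ (-(6 * x₂ z ^ 2 - g₂ / 2)) z)
    (h1 : p₁ z ^ 2 = 4 * x₁ z ^ 3 - g₂ * x₁ z - g₃)
    (h2 : p₂ z ^ 2 = 4 * x₂ z ^ 3 - g₂ * x₂ z - g₃) (hA : x₁ z - x₂ z ≠ 0) :
    HasDerivAt (fun v => ((p₁ v - p₂ v) / (2 * (x₁ v - x₂ v))) ^ 2 - x₁ v - x₂ v) 0 z := by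
  have hl := mza_ue_core_slope hx₁ hp₁ hx₂ hp₂ h1 h2 hA
  have h := ((hl.fun_pow 2).sub hx₁).sub hx₂
  refine h.congr_deriv ?_
  push_cast
  field_simp
  ring

/-- the `Y`-coordinate of the sum has derivative `0` -/
theorem mza_ue_core_Y
    (hx₁ : HasDerivAt x₁ (p₁ z) z) (hp₁ : HasDerivAt p₁ (6 * x₁ z ^ 2 - g₂ / 2) z)
    (hx₂ : HasDerivAt x₂ (-p₂ z) z) (hp₂ : HasDerivAt p₂ (-(6 * x₂ z ^ 2 - g₂ / 2)) z)
    (h1 : p₁ z ^ 2 = 4 * x₁ z ^ 3 - g₂ * x₁ z - g₃)
    (h2 : p₂ z ^ 2 = 4 * x₂ z ^ 3 - g₂ * x₂ z - g₃) (hA : x₁ z - x₂ z ≠ 0) :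
    HasDerivAt (fun v => -(((p₁ v - p₂ v) / (2 * (x₁ v - x₂ v))) *
      ((((p₁ v - p₂ v) / (2 * (x₁ v - x₂ v))) ^ 2 - x₁ v - x₂ v) - x₁ v) + p₁ v / 2)) 0 z := by
  have hl := mza_ue_core_slope hx₁ hp₁ hx₂ hp₂ h1 h2 hA
  have hX := mza_ue_core_X hx₁ hp₁ hx₂ hp₂ h1 h2 hA
  have h := ((hl.mul (hX.sub hx₁)).add (hp₁.div_const 2)).neg
  have hfun : (fun v => -(((p₁ v - p₂ v) / (2 * (x₁ v - x₂ v))) *
      ((((p₁ v - p₂ v) / (2 * (x₁ v - x₂ v))) ^ 2 - x₁ v - x₂ v) - x₁ v) + p₁ v / 2))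
      = -((fun v => (p₁ v - p₂ v) / (2 * (x₁ v - x₂ v))) *
          ((fun v => ((p₁ v - p₂ v) / (2 * (x₁ v - x₂ v))) ^ 2 - x₁ v - x₂ v) - x₁) +
        fun x => p₁ x / 2) := by
    funext v
    simp [Pi.sub_apply, Pi.mul_apply, Pi.add_apply, Pi.neg_apply]
  rw [hfun]
  refine h.congr_deriv ?_
  simp only [Pi.sub_apply]
  field_simp
  linear_combination h1 - h2

end core

/-! ### the functions `ℓ`, `X`, `Y` for a fixed sum `s` -/

/-- the slope of the chord through `Φ(z)` and `Φ(s - z)` -/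
noncomputable def mza_ue_l (s z : ℂ) : ℂ :=
  (L.derivWeierstrassP z - L.derivWeierstrassP (s - z)) /
    (2 * (L.weierstrassP z - L.weierstrassP (s - z)))

/-- the `X`-coordinate of `Φ(z) + Φ(s - z)` -/
noncomputable def mza_ue_X (s z : ℂ) : ℂ :=
  (mza_ue_l L s z) ^ 2 - L.weierstrassP z - L.weierstrassP (s - z)

/-- the `Y`-coordinate of `Φ(z) + Φ(s - z)` -/
noncomputable def mza_ue_Y (s z : ℂ) : ℂ :=
  -(mza_ue_l L s z * (mza_ue_X L s z - L.weierstrassP z) + L.derivWeierstrassP z / 2)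

theorem mza_ue_hasDerivAt_P_sub {s z : ℂ} (hz : s - z ∉ L.lattice) :
    HasDerivAt (fun v => L.weierstrassP (s - v)) (-L.derivWeierstrassP (s - z)) z := by
  have h1 : HasDerivAt (fun v : ℂ => s - v) (-1) z := by
    simpa using (hasDerivAt_id z).const_sub s
  have h2 := (mza_ue_hasDerivAt_P L hz).comp z h1
  refine h2.congr_deriv ?_
  ring

theorem mza_ue_hasDerivAt_dP_sub {s z : ℂ} (hz : s - z ∉ L.lattice) :
    HasDerivAt (fun v => L.derivWeierstrassP (s - v))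
      (-(6 * L.weierstrassP (s - z) ^ 2 - L.g₂ / 2)) z := by
  have h1 : HasDerivAt (fun v : ℂ => s - v) (-1) z := by
    simpa using (hasDerivAt_id z).const_sub s
  have h2 := (mza_ue_hasDerivAt_dP L hz).comp z h1
  refine h2.congr_deriv ?_
  ring

/-- the domain -/
def mza_ue_Dom (s : ℂ) : Set ℂ :=
  {z | z ∉ L.lattice ∧ s - z ∉ L.lattice ∧ L.weierstrassP z ≠ L.weierstrassP (s - z)}

theorem mza_ue_hasDerivAt_X {s z : ℂ} (hz : z ∈ mza_ue_Dom L s) :
    HasDerivAt (mza_ue_X L s) 0 z := by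
  obtain ⟨h1, h2, h3⟩ := hz
  exact mza_ue_core_X (x₁ := L.weierstrassP) (p₁ := L.derivWeierstrassP)
    (x₂ := fun v => L.weierstrassP (s - v)) (p₂ := fun v => L.derivWeierstrassP (s - v))
    (g₂ := L.g₂) (g₃ := L.g₃)
    (mza_ue_hasDerivAt_P L h1) (mza_ue_hasDerivAt_dP L h1) (mza_ue_hasDerivAt_P_sub L h2)
    (mza_ue_hasDerivAt_dP_sub L h2) (L.derivWeierstrassP_sq z h1) (L.derivWeierstrassP_sq _ h2)
    (sub_ne_zero.mpr h3)

theorem mza_ue_hasDerivAt_Y {s z : ℂ} (hz : z ∈ mza_ue_Dom L s) :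
    HasDerivAt (mza_ue_Y L s) 0 z := by
  obtain ⟨h1, h2, h3⟩ := hz
  exact mza_ue_core_Y (x₁ := L.weierstrassP) (p₁ := L.derivWeierstrassP)
    (x₂ := fun v => L.weierstrassP (s - v)) (p₂ := fun v => L.derivWeierstrassP (s - v))
    (g₂ := L.g₂) (g₃ := L.g₃)
    (mza_ue_hasDerivAt_P L h1) (mza_ue_hasDerivAt_dP L h1) (mza_ue_hasDerivAt_P_sub L h2)
    (mza_ue_hasDerivAt_dP_sub L h2) (L.derivWeierstrassP_sq z h1) (L.derivWeierstrassP_sq _ h2)
    (sub_ne_zero.mpr h3)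

/-! ### expansions at `0` -/

theorem mza_ue_P_eq (z : ℂ) :
    L.weierstrassP z = L.weierstrassPExcept 0 z + 1 / z ^ 2 := by
  have h := L.weierstrassPExcept_def (0 : L.lattice) z
  simp only [ZeroMemClass.coe_zero, sub_zero] at h
  rw [h]
  simp

theorem mza_ue_dP_eq (z : ℂ) :
    L.derivWeierstrassP z = L.derivWeierstrassPExcept 0 z - 2 / z ^ 3 := by
  have h := L.derivWeierstrassPExcept_def (0 : L.lattice) z
  simp only [ZeroMemClass.coe_zero, sub_zero] at h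
  rw [h]
  ring

theorem mza_ue_continuousAt_eps : ContinuousAt (L.weierstrassPExcept 0) 0 :=
  (L.analyticAt_weierstrassPExcept 0).continuousAt

theorem mza_ue_continuousAt_D : ContinuousAt (L.derivWeierstrassPExcept 0) 0 :=
  (L.analyticAt_derivWeierstrassPExcept 0).continuousAt

theorem mza_ue_continuousAt_P_sub {s : ℂ} (hs : s ∉ L.lattice) :
    ContinuousAt (fun v => L.weierstrassP (s - v)) 0 :=
  (mza_ue_hasDerivAt_P_sub L (s := s) (z := 0) (by simpa using hs)).continuousAt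

theorem mza_ue_continuousAt_dP_sub {s : ℂ} (hs : s ∉ L.lattice) :
    ContinuousAt (fun v => L.derivWeierstrassP (s - v)) 0 :=
  (mza_ue_hasDerivAt_dP_sub L (s := s) (z := 0) (by simpa using hs)).continuousAt

/-- a punctured neighbourhood of `0` lies in the domain -/
theorem mza_ue_eventually_dom {s : ℂ} (hs : s ∉ L.lattice) :
    ∀ᶠ z in 𝓝 (0 : ℂ), z ≠ 0 → z ∈ mza_ue_Dom L s := by
  have h1 : ∀ᶠ z in 𝓝 (0 : ℂ), z ∉ (L.lattice : Set ℂ) \ {0} :=
    L.compl_lattice_sdiff_singleton_mem_nhds 0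
  have h2 : ∀ᶠ z in 𝓝 (0 : ℂ), s - z ∉ L.lattice := by
    have hc : ContinuousAt (fun z : ℂ => s - z) 0 := (continuous_const.sub continuous_id).continuousAt
    have : ((L.lattice : Set ℂ)ᶜ) ∈ 𝓝 (s - 0) := by
      rw [sub_zero]
      exact (mza_ue_isOpen_compl_lattice L).mem_nhds hs
    exact hc.eventually this
  -- `h z = 1 + z² ε(z) - z² ℘(s - z)` is continuous at `0` with value `1`
  have h3 : ContinuousAt (fun z : ℂ => 1 + z ^ 2 * L.weierstrassPExcept 0 z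
      - z ^ 2 * L.weierstrassP (s - z)) 0 :=
    ((continuousAt_const.add ((continuousAt_id.pow 2).mul (mza_ue_continuousAt_eps L))).sub
      ((continuousAt_id.pow 2).mul (mza_ue_continuousAt_P_sub L hs)))
  have h4 : ∀ᶠ z in 𝓝 (0 : ℂ), 1 + z ^ 2 * L.weierstrassPExcept 0 z
      - z ^ 2 * L.weierstrassP (s - z) ≠ 0 := by
    apply h3.eventually_ne
    simp
  filter_upwards [h1, h2, h4] with z hz1 hz2 hz4 hz0
  refine ⟨fun hmem => hz1 ⟨hmem, hz0⟩, hz2, ?_⟩
  intro heq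
  apply hz4
  rw [← heq, mza_ue_P_eq L z]
  field_simp
  ring

/-! ### the half disc -/

/-- the open half disc `{‖z‖ < r, 0 < re z}` -/
def mza_ue_S (r : ℝ) : Set ℂ := Metric.ball (0 : ℂ) r ∩ {z : ℂ | 0 < z.re}

theorem mza_ue_S_convex (r : ℝ) : Convex ℝ (mza_ue_S r) :=
  (convex_ball (0 : ℂ) r).inter (convex_halfSpace_re_gt 0)

theorem mza_ue_S_isOpen (r : ℝ) : IsOpen (mza_ue_S r) :=
  Metric.isOpen_ball.inter (isOpen_lt continuous_const Complex.continuous_re)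

theorem mza_ue_ofReal_mem_S {r t : ℝ} (ht0 : 0 < t) (htr : t < r) : (t : ℂ) ∈ mza_ue_S r := by
  refine ⟨?_, ?_⟩
  · rw [Metric.mem_ball, dist_zero_right, Complex.norm_real, Real.norm_eq_abs, abs_of_pos ht0]
    exact htr
  · simpa using ht0

/-- a function tending to `a` at `0` and vanishing on a half disc has `a = 0` -/
theorem mza_ue_limit_zero {Ψ : ℂ → ℂ} {a : ℂ} {r : ℝ} (hr : 0 < r)
    (h : Tendsto Ψ (𝓝[≠] (0 : ℂ)) (𝓝 a)) (h0 : ∀ z ∈ mza_ue_S r, Ψ z = 0) : a = 0 := by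
  have hγ : Tendsto (fun t : ℝ => (t : ℂ)) (𝓝[>] (0 : ℝ)) (𝓝[≠] (0 : ℂ)) := by
    apply tendsto_nhdsWithin_of_tendsto_nhds_of_eventually_within
    · have : Tendsto (fun t : ℝ => (t : ℂ)) (𝓝 (0 : ℝ)) (𝓝 ((0 : ℝ) : ℂ)) :=
        Complex.continuous_ofReal.tendsto 0
      simpa using this.mono_left nhdsWithin_le_nhds
    · filter_upwards [self_mem_nhdsWithin] with t ht
      simp only [Set.mem_compl_iff, Set.mem_singleton_iff, Complex.ofReal_eq_zero]
      exact ne_of_gt ht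
  have h1 : Tendsto (fun t : ℝ => Ψ (t : ℂ)) (𝓝[>] (0 : ℝ)) (𝓝 a) := h.comp hγ
  have h2 : ∀ᶠ t : ℝ in 𝓝[>] (0 : ℝ), Ψ (t : ℂ) = 0 := by
    have : Set.Ioo (0 : ℝ) r ∈ 𝓝[>] (0 : ℝ) := Ioo_mem_nhdsGT hr
    filter_upwards [this] with t ht
    exact h0 _ (mza_ue_ofReal_mem_S ht.1 ht.2)
  have h3 : Tendsto (fun t : ℝ => Ψ (t : ℂ)) (𝓝[>] (0 : ℝ)) (𝓝 0) :=
    tendsto_const_nhds.congr' (h2.mono fun t ht => ht.symm)
  exact tendsto_nhds_unique h1 h3

/-- a half disc inside the domain -/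
theorem mza_ue_exists_S {s : ℂ} (hs : s ∉ L.lattice) :
    ∃ r : ℝ, 0 < r ∧ mza_ue_S r ⊆ mza_ue_Dom L s := by
  obtain ⟨r, hr, hball⟩ := Metric.eventually_nhds_iff_ball.mp (mza_ue_eventually_dom L hs)
  refine ⟨r, hr, fun z hz => hball z hz.1 ?_⟩
  intro h0
  have : (0 : ℝ) < z.re := hz.2
  rw [h0] at this
  simp at this

/-- `X` and `Y` are constant on a half disc inside the domain -/
theorem mza_ue_const_on_S {s : ℂ} {r : ℝ} (hS : mza_ue_S r ⊆ mza_ue_Dom L s) :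
    (∃ a, ∀ z ∈ mza_ue_S r, mza_ue_X L s z = a) ∧ (∃ b, ∀ z ∈ mza_ue_S r, mza_ue_Y L s z = b) := by
  constructor
  · exact (mza_ue_S_isOpen r).exists_is_const_of_deriv_eq_zero
      (mza_ue_S_convex r).isPreconnected
      (fun z hz => (mza_ue_hasDerivAt_X L (hS hz)).differentiableAt.differentiableWithinAt)
      (fun z hz => (mza_ue_hasDerivAt_X L (hS hz)).deriv)
  · exact (mza_ue_S_isOpen r).exists_is_const_of_deriv_eq_zero
      (mza_ue_S_convex r).isPreconnected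
      (fun z hz => (mza_ue_hasDerivAt_Y L (hS hz)).differentiableAt.differentiableWithinAt)
      (fun z hz => (mza_ue_hasDerivAt_Y L (hS hz)).deriv)

/-! ### the constants -/

/-- the regular part of `z⁴ (B² - 4 A² (x₁ + x₂ + c))` -/
def mza_ue_PhiX (c zz e d x2 p2 : ℂ) : ℂ :=
  4 * (x2 - c) - 12 * e + zz * (4 * p2 - 4 * d)
    + zz ^ 2 * (8 * x2 * c + 4 * x2 ^ 2 - 8 * e * c + 8 * e * x2 - 12 * e ^ 2)
    + zz ^ 4 * (p2 ^ 2 - 4 * x2 ^ 2 * c - 4 * x2 ^ 3 - 2 * d * p2 + d ^ 2 + 8 * e * x2 * c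
        + 4 * e * x2 ^ 2 - 4 * e ^ 2 * c + 4 * e ^ 2 * x2 - 4 * e ^ 3)

theorem mza_ue_PhiX_eq {c zz e d x2 p2 : ℂ} (hz : zz ≠ 0) :
    zz ^ 4 * (((d - 2 / zz ^ 3) - p2) ^ 2
      - 4 * ((e + 1 / zz ^ 2) - x2) ^ 2 * ((e + 1 / zz ^ 2) + x2 + c))
      = mza_ue_PhiX c zz e d x2 p2 := by
  unfold mza_ue_PhiX
  field_simp
  ring

/-- the regular part of `z² (-B (P_s - x₁) - A p₁ - 2 A c)` -/
def mza_ue_PsiY (c Ps zz e d x2 p2 sl : ℂ) : ℂ :=
  2 * sl - 2 * c - p2 + zz ^ 2 * (p2 * Ps + 2 * x2 * c - d * Ps + d * x2 - 2 * e * c - e * p2)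

theorem mza_ue_PsiY_eq {c Ps zz e d x2 p2 : ℂ} (hz : zz ≠ 0) :
    zz ^ 2 * (-((d - 2 / zz ^ 3) - p2) * (Ps - (e + 1 / zz ^ 2))
      - ((e + 1 / zz ^ 2) - x2) * (d - 2 / zz ^ 3) - 2 * ((e + 1 / zz ^ 2) - x2) * c)
      = mza_ue_PsiY c Ps zz e d x2 p2 ((Ps - x2) / zz) := by
  unfold mza_ue_PsiY
  field_simp
  ring

theorem mza_ue_X_eq_iff {s z a : ℂ} (hz : z ∈ mza_ue_Dom L s) :
    mza_ue_X L s z = a ↔
      (L.derivWeierstrassP z - L.derivWeierstrassP (s - z)) ^ 2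
        - 4 * (L.weierstrassP z - L.weierstrassP (s - z)) ^ 2 *
          (L.weierstrassP z + L.weierstrassP (s - z) + a) = 0 := by
  have hA : L.weierstrassP z - L.weierstrassP (s - z) ≠ 0 := sub_ne_zero.mpr hz.2.2
  rw [mza_ue_X, mza_ue_l]
  constructor
  · intro h
    field_simp at h
    linear_combination h
  · intro h
    field_simp
    linear_combination h

theorem mza_ue_Y_eq_iff {s z b : ℂ} (hz : z ∈ mza_ue_Dom L s)
    (hX : mza_ue_X L s z = L.weierstrassP s) :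
    mza_ue_Y L s z = b ↔
      -(L.derivWeierstrassP z - L.derivWeierstrassP (s - z)) *
          (L.weierstrassP s - L.weierstrassP z)
        - (L.weierstrassP z - L.weierstrassP (s - z)) * L.derivWeierstrassP z
        - 2 * (L.weierstrassP z - L.weierstrassP (s - z)) * b = 0 := by
  have hA : L.weierstrassP z - L.weierstrassP (s - z) ≠ 0 := sub_ne_zero.mpr hz.2.2
  rw [mza_ue_Y, hX, mza_ue_l]
  constructor
  · intro h
    field_simp at h
    linear_combination h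
  · intro h
    field_simp
    linear_combination h

theorem mza_ue_PhiX_continuousAt {c : ℂ} {f1 f2 f3 f4 f5 : ℂ → ℂ} {z0 : ℂ}
    (h1 : ContinuousAt f1 z0) (h2 : ContinuousAt f2 z0) (h3 : ContinuousAt f3 z0)
    (h4 : ContinuousAt f4 z0) (h5 : ContinuousAt f5 z0) :
    ContinuousAt (fun z => mza_ue_PhiX c (f1 z) (f2 z) (f3 z) (f4 z) (f5 z)) z0 := by
  unfold mza_ue_PhiX
  fun_prop

theorem mza_ue_PsiY_tendsto {c Ps : ℂ} {f1 f2 f3 f4 f5 f6 : ℂ → ℂ} {F : Filter ℂ}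
    {a1 a2 a3 a4 a5 a6 : ℂ}
    (h1 : Tendsto f1 F (𝓝 a1)) (h2 : Tendsto f2 F (𝓝 a2)) (h3 : Tendsto f3 F (𝓝 a3))
    (h4 : Tendsto f4 F (𝓝 a4)) (h5 : Tendsto f5 F (𝓝 a5)) (h6 : Tendsto f6 F (𝓝 a6)) :
    Tendsto (fun z => mza_ue_PsiY c Ps (f1 z) (f2 z) (f3 z) (f4 z) (f5 z) (f6 z)) F
      (𝓝 (mza_ue_PsiY c Ps a1 a2 a3 a4 a5 a6)) := by
  unfold mza_ue_PsiY
  exact (((h6.const_mul 2).sub tendsto_const_nhds).sub h5).add
    ((h1.pow 2).mul ((((((h5.mul tendsto_const_nhds).add ((h4.const_mul 2).mul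
      tendsto_const_nhds)).sub (h3.mul tendsto_const_nhds)).add (h3.mul h4)).sub
      ((h2.const_mul 2).mul tendsto_const_nhds)).sub (h2.mul h5)))

/-- the constant value of `X` on a half disc is `℘ s` -/
theorem mza_ue_const_X {s : ℂ} (hs : s ∉ L.lattice) {r : ℝ} (hr : 0 < r)
    (hS : mza_ue_S r ⊆ mza_ue_Dom L s) {a : ℂ} (ha : ∀ z ∈ mza_ue_S r, mza_ue_X L s z = a) :
    a = L.weierstrassP s := by
  set Ψ : ℂ → ℂ := fun z => mza_ue_PhiX a z (L.weierstrassPExcept 0 z)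
    (L.derivWeierstrassPExcept 0 z) (L.weierstrassP (s - z)) (L.derivWeierstrassP (s - z)) with hΨ
  have hcont : ContinuousAt Ψ 0 :=
    mza_ue_PhiX_continuousAt continuousAt_id (mza_ue_continuousAt_eps L)
      (mza_ue_continuousAt_D L) (mza_ue_continuousAt_P_sub L hs) (mza_ue_continuousAt_dP_sub L hs)
  have htend : Tendsto Ψ (𝓝[≠] (0 : ℂ)) (𝓝 (Ψ 0)) := hcont.tendsto.mono_left nhdsWithin_le_nhds
  have hzero : ∀ z ∈ mza_ue_S r, Ψ z = 0 := by
    intro z hz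
    have hz0 : z ≠ 0 := by
      intro h0
      have : (0 : ℝ) < z.re := hz.2
      rw [h0] at this
      simp at this
    have h1 := (mza_ue_X_eq_iff L (hS hz)).mp (ha z hz)
    rw [mza_ue_P_eq L z, mza_ue_dP_eq L z] at h1
    simp only [hΨ]
    rw [← mza_ue_PhiX_eq hz0, h1, mul_zero]
  have h0 := mza_ue_limit_zero hr htend hzero
  simp only [hΨ, mza_ue_PhiX, sub_zero, L.weierstrassPExcept_zero] at h0
  have : (4 : ℂ) * (L.weierstrassP s - a) = 0 := by
    have h0' := h0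
    ring_nf at h0' ⊢
    linear_combination h0'
  rcases mul_eq_zero.mp this with h | h
  · exact absurd h (by norm_num)
  · exact (sub_eq_zero.mp h).symm

theorem mza_ue_slope_tendsto {s : ℂ} (hs : s ∉ L.lattice) :
    Tendsto (fun z : ℂ => (L.weierstrassP s - L.weierstrassP (s - z)) / z) (𝓝[≠] (0 : ℂ))
      (𝓝 (L.derivWeierstrassP s)) := by
  have h := mza_ue_hasDerivAt_P_sub L (s := s) (z := 0) (by simpa using hs)
  rw [hasDerivAt_iff_tendsto_slope_zero] at h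
  have h2 := h.neg
  simp only [sub_zero, neg_neg] at h2
  refine h2.congr fun z => ?_
  simp only [zero_add, smul_eq_mul]
  rw [div_eq_inv_mul]
  ring

/-- the constant value of `Y` on a half disc is `℘' s / 2` -/
theorem mza_ue_const_Y {s : ℂ} (hs : s ∉ L.lattice) {r : ℝ} (hr : 0 < r)
    (hS : mza_ue_S r ⊆ mza_ue_Dom L s)
    (hX : ∀ z ∈ mza_ue_S r, mza_ue_X L s z = L.weierstrassP s)
    {b : ℂ} (hb : ∀ z ∈ mza_ue_S r, mza_ue_Y L s z = b) :
    b = L.derivWeierstrassP s / 2 := by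
  set Ψ : ℂ → ℂ := fun z => mza_ue_PsiY b (L.weierstrassP s) z (L.weierstrassPExcept 0 z)
    (L.derivWeierstrassPExcept 0 z) (L.weierstrassP (s - z)) (L.derivWeierstrassP (s - z))
    ((L.weierstrassP s - L.weierstrassP (s - z)) / z) with hΨ
  have hle : 𝓝[≠] (0 : ℂ) ≤ 𝓝 0 := nhdsWithin_le_nhds
  have htend : Tendsto Ψ (𝓝[≠] (0 : ℂ))
      (𝓝 (mza_ue_PsiY b (L.weierstrassP s) 0 (L.weierstrassPExcept 0 0)
        (L.derivWeierstrassPExcept 0 0) (L.weierstrassP (s - 0)) (L.derivWeierstrassP (s - 0))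
        (L.derivWeierstrassP s))) :=
    mza_ue_PsiY_tendsto ((continuousAt_id (x := (0 : ℂ))).tendsto.mono_left hle)
      ((mza_ue_continuousAt_eps L).tendsto.mono_left hle)
      ((mza_ue_continuousAt_D L).tendsto.mono_left hle)
      ((mza_ue_continuousAt_P_sub L hs).tendsto.mono_left hle)
      ((mza_ue_continuousAt_dP_sub L hs).tendsto.mono_left hle)
      (mza_ue_slope_tendsto L hs)
  have hzero : ∀ z ∈ mza_ue_S r, Ψ z = 0 := by
    intro z hz
    have hz0 : z ≠ 0 := by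
      intro h0
      have : (0 : ℝ) < z.re := hz.2
      rw [h0] at this
      simp at this
    have h1 := (mza_ue_Y_eq_iff L (hS hz) (hX z hz)).mp (hb z hz)
    rw [mza_ue_P_eq L z, mza_ue_dP_eq L z] at h1
    simp only [hΨ]
    rw [← mza_ue_PsiY_eq hz0, h1, mul_zero]
  have h0 := mza_ue_limit_zero hr htend hzero
  simp only [mza_ue_PsiY, sub_zero] at h0
  linear_combination (-1 / 2 : ℂ) * h0

/-! ### the identity theorem step -/

/-- the big domain `ℂ \ (L ∪ (s - L))` -/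
def mza_ue_U (s : ℂ) : Set ℂ := {z | z ∉ L.lattice ∧ s - z ∉ L.lattice}

theorem mza_ue_U_eq (s : ℂ) :
    mza_ue_U L s = ((L.lattice : Set ℂ) ∪ (fun z : ℂ => s - z) ⁻¹' (L.lattice : Set ℂ))ᶜ := by
  ext z
  simp [mza_ue_U]

theorem mza_ue_U_isOpen (s : ℂ) : IsOpen (mza_ue_U L s) := by
  rw [mza_ue_U_eq]
  exact (L.isClosed_lattice.union
    (L.isClosed_lattice.preimage (continuous_const.sub continuous_id))).isOpen_compl

theorem mza_ue_U_isPreconnected (s : ℂ) : IsPreconnected (mza_ue_U L s) := by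
  rw [mza_ue_U_eq]
  have h1 : ((fun z : ℂ => s - z) ⁻¹' (L.lattice : Set ℂ)).Countable :=
    (mza_ue_countable_lattice L).preimage_of_injOn (fun a _ b _ h => by
      simpa using h)
  exact (((mza_ue_countable_lattice L).union h1).isPathConnected_compl_of_one_lt_rank
    (rank_real_complex ▸ Nat.one_lt_ofNat)).isConnected.isPreconnected

theorem mza_ue_Dom_subset_U (s : ℂ) : mza_ue_Dom L s ⊆ mza_ue_U L s := fun _ hz => ⟨hz.1, hz.2.1⟩

theorem mza_ue_analyticAt_P_sub {s z : ℂ} (hz : s - z ∉ L.lattice) :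
    AnalyticAt ℂ (fun v => L.weierstrassP (s - v)) z :=
  AnalyticAt.comp (g := L.weierstrassP) (f := fun v : ℂ => s - v)
    (L.analyticOnNhd_weierstrassP _ hz) (analyticAt_const.sub analyticAt_id)

theorem mza_ue_analyticAt_dP_sub {s z : ℂ} (hz : s - z ∉ L.lattice) :
    AnalyticAt ℂ (fun v => L.derivWeierstrassP (s - v)) z :=
  AnalyticAt.comp (g := L.derivWeierstrassP) (f := fun v : ℂ => s - v)
    (L.analyticOnNhd_derivWeierstrassP _ hz) (analyticAt_const.sub analyticAt_id)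

/-- the polynomial form of `X = ℘ s` -/
noncomputable def mza_ue_Xi (s z : ℂ) : ℂ :=
  (L.derivWeierstrassP z - L.derivWeierstrassP (s - z)) ^ 2
    - 4 * (L.weierstrassP z - L.weierstrassP (s - z)) ^ 2 *
      (L.weierstrassP z + L.weierstrassP (s - z) + L.weierstrassP s)

/-- the polynomial form of `Y = ℘' s / 2` (given `X = ℘ s`) -/
noncomputable def mza_ue_Ups (s z : ℂ) : ℂ :=
  -(L.derivWeierstrassP z - L.derivWeierstrassP (s - z)) *
      (L.weierstrassP s - L.weierstrassP z)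
    - (L.weierstrassP z - L.weierstrassP (s - z)) * L.derivWeierstrassP z
    - 2 * (L.weierstrassP z - L.weierstrassP (s - z)) * (L.derivWeierstrassP s / 2)

theorem mza_ue_Xi_analyticOnNhd (s : ℂ) : AnalyticOnNhd ℂ (mza_ue_Xi L s) (mza_ue_U L s) := by
  intro z hz
  have h1 := L.analyticOnNhd_weierstrassP z hz.1
  have h2 := L.analyticOnNhd_derivWeierstrassP z hz.1
  have h3 := mza_ue_analyticAt_P_sub L hz.2
  have h4 := mza_ue_analyticAt_dP_sub L hz.2
  unfold mza_ue_Xi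
  exact ((h2.sub h4).pow 2).sub (((analyticAt_const.mul ((h1.sub h3).pow 2))).mul
    ((h1.add h3).add analyticAt_const))

theorem mza_ue_Ups_analyticOnNhd (s : ℂ) : AnalyticOnNhd ℂ (mza_ue_Ups L s) (mza_ue_U L s) := by
  intro z hz
  have h1 := L.analyticOnNhd_weierstrassP z hz.1
  have h2 := L.analyticOnNhd_derivWeierstrassP z hz.1
  have h3 := mza_ue_analyticAt_P_sub L hz.2
  have h4 := mza_ue_analyticAt_dP_sub L hz.2
  unfold mza_ue_Ups
  exact ((((h2.sub h4).neg).mul (analyticAt_const.sub h1)).sub ((h1.sub h3).mul h2)).sub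
    ((analyticAt_const.mul (h1.sub h3)).mul analyticAt_const)

/-- **Euler**: on the whole domain, `X = ℘ s` and `Y = ℘' s / 2` -/
theorem mza_ue_XY {s : ℂ} (hs : s ∉ L.lattice) {z : ℂ} (hz : z ∈ mza_ue_Dom L s) :
    mza_ue_X L s z = L.weierstrassP s ∧ mza_ue_Y L s z = L.derivWeierstrassP s / 2 := by
  obtain ⟨r, hr, hS⟩ := mza_ue_exists_S L hs
  obtain ⟨⟨a, ha⟩, ⟨b, hb⟩⟩ := mza_ue_const_on_S L hS
  have haP := mza_ue_const_X L hs hr hS ha
  subst haP
  have hbP := mza_ue_const_Y L hs hr hS ha hb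
  subst hbP
  -- a base point in the half disc
  have hz0 : ((r / 2 : ℝ) : ℂ) ∈ mza_ue_S r := mza_ue_ofReal_mem_S (by linarith) (by linarith)
  have hXi0 : ∀ w ∈ mza_ue_S r, mza_ue_Xi L s w = 0 := fun w hw =>
    (mza_ue_X_eq_iff L (hS hw)).mp (ha w hw)
  have hUps0 : ∀ w ∈ mza_ue_S r, mza_ue_Ups L s w = 0 := fun w hw =>
    (mza_ue_Y_eq_iff L (hS hw) (ha w hw)).mp (hb w hw)
  have hXi : Set.EqOn (mza_ue_Xi L s) 0 (mza_ue_U L s) :=
    (mza_ue_Xi_analyticOnNhd L s).eqOn_zero_of_preconnected_of_eventuallyEq_zero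
      (mza_ue_U_isPreconnected L s) (mza_ue_Dom_subset_U L s (hS hz0))
      (by filter_upwards [(mza_ue_S_isOpen r).mem_nhds hz0] with w hw using hXi0 w hw)
  have hUps : Set.EqOn (mza_ue_Ups L s) 0 (mza_ue_U L s) :=
    (mza_ue_Ups_analyticOnNhd L s).eqOn_zero_of_preconnected_of_eventuallyEq_zero
      (mza_ue_U_isPreconnected L s) (mza_ue_Dom_subset_U L s (hS hz0))
      (by filter_upwards [(mza_ue_S_isOpen r).mem_nhds hz0] with w hw using hUps0 w hw)
  have hX : mza_ue_X L s z = L.weierstrassP s :=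
    (mza_ue_X_eq_iff L hz).mpr (hXi (mza_ue_Dom_subset_U L s hz))
  exact ⟨hX, (mza_ue_Y_eq_iff L hz hX).mpr (hUps (mza_ue_Dom_subset_U L s hz))⟩

/-- **THE ADDITION THEOREM** for the Weierstrass `℘`-function (generic case). -/
theorem mza_ue_add {z w : ℂ} (hz : z ∉ L.lattice) (hw : w ∉ L.lattice)
    (hzw : z + w ∉ L.lattice) (hne : L.weierstrassP z ≠ L.weierstrassP w) :
    L.weierstrassP (z + w) =
        ((L.derivWeierstrassP z - L.derivWeierstrassP w) /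
          (2 * (L.weierstrassP z - L.weierstrassP w))) ^ 2
          - L.weierstrassP z - L.weierstrassP w ∧
      L.derivWeierstrassP (z + w) / 2 =
        -((L.derivWeierstrassP z - L.derivWeierstrassP w) /
            (2 * (L.weierstrassP z - L.weierstrassP w)) *
            (L.weierstrassP (z + w) - L.weierstrassP z) + L.derivWeierstrassP z / 2) := by
  have hsub : z + w - z = w := add_sub_cancel_left z w
  have hdom : z ∈ mza_ue_Dom L (z + w) := ⟨hz, by rw [hsub]; exact hw, by rw [hsub]; exact hne⟩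
  obtain ⟨hX, hY⟩ := mza_ue_XY L hzw hdom
  have hX' : L.weierstrassP (z + w) =
      ((L.derivWeierstrassP z - L.derivWeierstrassP w) /
        (2 * (L.weierstrassP z - L.weierstrassP w))) ^ 2
        - L.weierstrassP z - L.weierstrassP w := by
    rw [← hX, mza_ue_X, mza_ue_l, hsub]
  refine ⟨hX', ?_⟩
  rw [← hY, mza_ue_Y, hX, mza_ue_l, hsub]

end Fermat.Agent.MZ
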