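/-
MAZUR project, node [MZ-A], cell [A-UNIF], file `MZ/A/Unif/PhiTors.lean` (helper7, prefix `mza_uh_`).

TORSION POINTS UNDER THE WEIERSTRASS UNIFORMISATION (given the generic addition theorem
`mza_uh_AddHyp L` of `PhiHom.lean`).

* `mza_uh_psi2 L : Point → ℂ`      : `2y` at `(x, y)`, `0` at the origin; `mza_uh_psi2_Phi : ψ₂ (Φ z) = ℘' z`;
* `mza_uh_nsmul_eq_zero_iff`       : `n • Φ z = 0 ↔ n z ∈ L`;
* `mza_uh_torsion`                 : `addOrderOf Q = p`, `2 ≤ p` ⟹ `Q = Φ z` with `z ∉ L`, `p z ∈ L`,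
  `k • Q = Φ (k z)`, `ψ₂ (k • Q) = ℘' (k z)`, `k z ∉ L` for `0 < k < p`;
* `mza_uh_prod_psi2`               : `∏_{k=1}^{p-1} ψ₂ (k • Q) = ∏_{k=1}^{p-1} ℘' (k z)`.
-/
import Mathlib
import Fermat.Agent.MZ.A.Unif.PhiHom

set_option autoImplicit false

noncomputable section

namespace Fermat.Agent.MZ

open Complex
open scoped PeriodPair

variable (L : PeriodPair)

/-- `ψ₂ = 2y` at an affine point of the short Weierstrass curve, `0` at the origin -/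
def mza_uh_psi2 : (mza_uh_curve L).toAffine.Point → ℂ
  | .zero => 0
  | .some _ y _ => 2 * y

@[simp] theorem mza_uh_psi2_zero : mza_uh_psi2 L 0 = 0 := rfl

@[simp] theorem mza_uh_psi2_some {x y : ℂ} (h : (mza_uh_curve L).toAffine.Nonsingular x y) :
    mza_uh_psi2 L (.some x y h) = 2 * y := rfl

/-- `ψ₂ (Φ z) = ℘' z` (also on the lattice, where both sides are `0`) -/
theorem mza_uh_psi2_Phi (z : ℂ) : mza_uh_psi2 L (mza_uh_Phi L z) = ℘'[L] z := by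
  by_cases hz : z ∈ L.lattice
  · rw [mza_uh_Phi_of_mem L hz, mza_uh_psi2_zero]
    exact (L.derivWeierstrassP_coe ⟨z, hz⟩).symm
  · rw [mza_uh_Phi_of_notMem L hz, mza_uh_psi2_some]
    ring

theorem mza_uh_nsmul_eq_zero_iff (hA : mza_uh_AddHyp L) (n : ℕ) (z : ℂ) :
    n • mza_uh_Phi L z = 0 ↔ (n : ℂ) * z ∈ L.lattice := by
  rw [← mza_uh_Phi_nsmul L hA, mza_uh_Phi_eq_zero_iff]

/-- **torsion points**: a point of exact order `p` is `Φ z` with `z ∉ L`, `p z ∈ L` -/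
theorem mza_uh_torsion (hA : mza_uh_AddHyp L) {p : ℕ} (hp : 2 ≤ p)
    (Q : (mza_uh_curve L).toAffine.Point) (hQ : addOrderOf Q = p) :
    ∃ z : ℂ, mza_uh_Phi L z = Q ∧ z ∉ L.lattice ∧ (p : ℂ) * z ∈ L.lattice ∧
      (∀ k : ℕ, k • Q = mza_uh_Phi L ((k : ℂ) * z)) ∧
      (∀ k : ℕ, mza_uh_psi2 L (k • Q) = ℘'[L] ((k : ℂ) * z)) ∧
      (∀ k : ℕ, 0 < k → k < p → (k : ℂ) * z ∉ L.lattice) := by
  obtain ⟨z, rfl⟩ := mza_uh_Phi_surjective L Q
  have hk : ∀ k : ℕ, k • mza_uh_Phi L z = mza_uh_Phi L ((k : ℂ) * z) := fun k =>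
    (mza_uh_Phi_nsmul L hA k z).symm
  refine ⟨z, rfl, ?_, ?_, hk, ?_, ?_⟩
  · intro hz
    rw [mza_uh_Phi_of_mem L hz, addOrderOf_zero] at hQ
    omega
  · rw [← mza_uh_nsmul_eq_zero_iff L hA, ← hQ]
    exact addOrderOf_nsmul_eq_zero _
  · intro k
    rw [hk, mza_uh_psi2_Phi]
  · intro k hk0 hkp hmem
    rw [← mza_uh_nsmul_eq_zero_iff L hA] at hmem
    have hdvd := addOrderOf_dvd_of_nsmul_eq_zero hmem
    rw [hQ] at hdvd
    exact absurd (Nat.le_of_dvd hk0 hdvd) (not_le.2 hkp)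

/-- the product of the `ψ₂ (k • Q)`, `0 < k < p`, in terms of `℘'` -/
theorem mza_uh_prod_psi2 (hA : mza_uh_AddHyp L) (p : ℕ) (z : ℂ) :
    ∏ k ∈ Finset.Ico 1 p, mza_uh_psi2 L (k • mza_uh_Phi L z)
      = ∏ k ∈ Finset.Ico 1 p, ℘'[L] ((k : ℂ) * z) := by
  refine Finset.prod_congr rfl fun k _ => ?_
  rw [← mza_uh_Phi_nsmul L hA, mza_uh_psi2_Phi]

/-- conversely, `z ∉ L` with `p z ∈ L` (`p` prime) gives a point of exact order `p` -/
theorem mza_uh_addOrderOf_Phi (hA : mza_uh_AddHyp L) {p : ℕ} (hp : p.Prime) {z : ℂ}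
    (hz : z ∉ L.lattice) (hpz : (p : ℂ) * z ∈ L.lattice) : addOrderOf (mza_uh_Phi L z) = p := by
  have h1 : p • mza_uh_Phi L z = 0 := (mza_uh_nsmul_eq_zero_iff L hA p z).2 hpz
  have hdvd := addOrderOf_dvd_of_nsmul_eq_zero h1
  rcases (Nat.dvd_prime hp).1 hdvd with h | h
  · exfalso
    rw [AddMonoid.addOrderOf_eq_one_iff, mza_uh_Phi_eq_zero_iff] at h
    exact hz h
  · exact h

end Fermat.Agent.MZ
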